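import Fermat.Agent.LT.Psi.Main
import Fermat.Agent.LT.Quad.Triv

/-!
# Output of block B10: the character `ψ` of order four with trivial central character
-/

set_option autoImplicit false
set_option linter.unusedSectionVars false

namespace Fermat.Agent.LT.Psi

open IsDedekindDomain NumberField WithZero
open Fermat.Agent.CFT.SUnits (ord ord_one ord_mul ord_inv ord_pow ord_div ord_eq_zero_iff
  valuation_eq_exp_neg_ord finite_ord_ne_zero div div_apply)
open Fermat.Agent.CFT.Places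
open Fermat.Agent.CFT.Global hiding Inputs p_dvd_index exists_notMem_locPow exists_place powE mem_powE index_powE index_zpowers_sup_powE second hasse_norm FirstInequality exists_eq_nsmul_add exists_ne_symVec
open Fermat.Agent.CFT.Global2

section Split

variable {K L : Type*} [Field K] [NumberField K] [Field L] [NumberField L] [Algebra K L]
  [IsGalois K L] (h2 : Module.finrank K L = 2) {σ : L ≃ₐ[K] L} (hσ : σ ≠ 1)

/-- congruences downstairs can be tested upstairs at unramified places -/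
lemma mem_cong_of_up {w : HeightOneSpectrum (𝓞 L)}
    (he : (w.under (𝓞 K)).asIdeal.ramificationIdx' w.asIdeal = 1) {n : ℕ} {x : Kˣ}
    (hx : up L x ∈ cong w n) : x ∈ cong (w.under (𝓞 K)) n := by
  rw [mem_cong] at hx ⊢
  have e : ((up L x : Lˣ) : L) - 1 = algebraMap K L ((x : K) - 1) := by simp
  rwa [e, valuation_algebraMap, he, pow_one] at hx

include h2 hσ in
/-- at a place which splits, local powers can be tested upstairs -/
theorem mem_locPow_of_up {p : ℕ} {w : HeightOneSpectrum (𝓞 L)} (hw : conj σ w ≠ w)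
    (he : (w.under (𝓞 K)).asIdeal.ramificationIdx' w.asIdeal = 1) {x : Kˣ}
    (hx : up L x ∈ locPow p w) : x ∈ locPow p (w.under (𝓞 K)) := by
  classical
  rw [mem_locPow] at hx ⊢
  intro n
  obtain ⟨y, hy⟩ := hx n
  have hy' : (up L x / y ^ p : Lˣ) ∈ cong w n := hy
  obtain ⟨z, hz⟩ := indep_cong ({w, conj σ w} : Finset (HeightOneSpectrum (𝓞 L))) n
    (fun w₁ => if w₁ = w then y else 1)
  have h3 := hz w (by simp)
  rw [if_pos rfl] at h3
  have h4 := hz (conj σ w) (by simp)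
  rw [if_neg hw, div_one] at h4
  have h5 : galU σ z ∈ cong w n := by
    have := (mem_cong_conj σ (conj σ w) n z).mpr h4
    rwa [conj_conj h2 hσ] at this
  refine ⟨normU L z, ?_⟩
  refine mem_cong_of_up he ?_
  have e : up L (x / normU L z ^ p) = (up L x / y ^ p) * ((z / y) * galU σ z)⁻¹ ^ p := by
    have e1 : (z / y * galU σ z)⁻¹ = y / (z * galU σ z) := by
      rw [div_mul_eq_mul_div, inv_div]
    rw [_root_.map_div, map_pow, up_normU h2 hσ, e1, div_pow, div_mul_div_cancel]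
  rw [e]
  exact mul_mem hy' (pow_mem (inv_mem (mul_mem h3 h5)) p)

end Split

/-- real part of `i ^ z` -/
def re4 (z : ZMod 4) : ℤ := if z = 0 then 1 else if z = 2 then -1 else 0

lemma re4_neg (z : ZMod 4) : re4 (-z) = re4 z := by
  revert z
  decide

/-- `ψ` is a ray character of `E` with values in `ZMod 4` whose restriction to `F` is the
quadratic character of `E = F(√a)`. -/
structure PsiChar {F E : Type} [Field F] [NumberField F] [Field E] [NumberField E] [Algebra F E]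
    (S : Finset (HeightOneSpectrum (𝓞 F))) (c : E ≃ₐ[F] E) (a : Fˣ) (n : ℕ)
    (ψ : HeightOneSpectrum (𝓞 E) → ZMod 4) : Prop where
  ray : IsRay (above E S) n ψ
  inert : ∀ P : HeightOneSpectrum (𝓞 E), P.under (𝓞 F) ∉ S → conj c P = P → ψ P = 2
  split : ∀ P : HeightOneSpectrum (𝓞 E), P.under (𝓞 F) ∉ S → conj c P ≠ P →
    ψ P + ψ (conj c P) = 0
  central : ∀ x : Fˣ, (rayVal (above E S) ψ (up E x)).toAdd + dbl (rayVal S (kum a) x).toAdd = 0
  exists_odd : ∀ T : Finset (HeightOneSpectrum (𝓞 F)), ∃ P : HeightOneSpectrum (𝓞 E),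
    P.under (𝓞 F) ∉ S ∧ P.under (𝓞 F) ∉ T ∧ conj c P ≠ P ∧ ψ P = 1 ∧ ψ (conj c P) = 3

namespace TowerData

variable {F E M : Type} [Field F] [NumberField F] [Field E] [NumberField E] [Field M]
  [NumberField M] [Algebra F E] [Algebra E M] [Algebra F M] [IsScalarTower F E M]
  {S : Finset (HeightOneSpectrum (𝓞 F))} (T : TowerData F E M S)

include T

lemma not_sq_a (x : Fˣ) : x ^ 2 ≠ T.a := by
  intro h
  have h1 : (algebraMap F E x) ^ 2 = T.α ^ 2 := by
    rw [T.sq_α, ← map_pow]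
    congr 1
    exact congrArg Units.val h
  rcases sq_eq_sq_iff_eq_or_eq_neg.mp h1 with h2 | h2
  · have h3 := T.c_α
    rw [← h2, AlgEquiv.commutes, self_eq_neg] at h3
    exact (map_ne_zero (algebraMap F E)).mpr x.ne_zero h3
  · have h3 := T.c_α
    have h4 : T.α = algebraMap F E (-x) := by rw [map_neg, h2, neg_neg]
    rw [h4, AlgEquiv.commutes, self_eq_neg] at h3
    exact (map_ne_zero (algebraMap F E)).mpr (neg_ne_zero.mpr x.ne_zero) h3

lemma not_sq_b_F (x : Fˣ) : x ^ 2 ≠ T.b := by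
  intro h
  apply T.not_sq_b (up E x)
  rw [← map_pow, h]

lemma not_sq_ab (x : Fˣ) : x ^ 2 ≠ T.a * T.b := by
  intro h
  have hα0 : (T.α : E) ≠ 0 := T.α_ne_zero
  apply T.not_sq_b (up E x * (Units.mk0 T.α hα0)⁻¹)
  rw [mul_pow, ← map_pow, h, map_mul, inv_pow]
  have h1 : up E T.a = (Units.mk0 T.α hα0) ^ 2 := by
    ext
    rw [coe_up, ← T.sq_α]
    rfl
  rw [h1, mul_comm (_ ^ 2), mul_inv_cancel_right]

lemma trivStmt [IsTotallyComplex F] : TrivStmt S T.a T.b := by
  intro n η hη h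
  exact Quad.eq_zero_of_inert hη T.not_sq_a S (fun v hv ha => h v hv (fun h' => ha h'.1))

/-- at places split in `E`: `σ` moves `Q` iff `b` is a local square -/
theorem conj_σ_ne_iff {Q : HeightOneSpectrum (𝓞 M)} (hQ : Q.under (𝓞 F) ∉ S)
    (ha : T.a ∈ locPow 2 (Q.under (𝓞 F))) :
    conj T.σ Q ≠ Q ↔ T.b ∈ locPow 2 (Q.under (𝓞 F)) := by
  have := T.galois_FE
  have := T.galois_EM
  constructor
  · intro h
    have hβ : T.β ^ 2 = algebraMap E M (up E T.b : Eˣ) := by
      rw [T.sq_β, coe_up, ← IsScalarTower.algebraMap_apply]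
    have h1 := Unr.mem_locPow_of_conj_ne T.finrank_EM T.σ_ne_one hβ T.σ_β h (T.unr_EM Q hQ)
    have hP : (Q.under (𝓞 E)).under (𝓞 F) ∉ S := by rwa [under_under]
    have ha' : T.a ∈ locPow 2 ((Q.under (𝓞 E)).under (𝓞 F)) := by rwa [under_under]
    have h3 := mem_locPow_of_up T.finrank_FE T.c_ne_one (T.conj_c_ne hP ha') (T.unr_FE _ hP) h1
    rwa [under_under] at h3
  · exact T.conj_σ_ne_of_b hQ

/-- at places of `E` outside `S`: `P` is not fixed iff `a` is a local square -/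
theorem conj_c_ne_iff {P : HeightOneSpectrum (𝓞 E)} (hP : P.under (𝓞 F) ∉ S) :
    conj T.c P ≠ P ↔ T.a ∈ locPow 2 (P.under (𝓞 F)) := by
  constructor
  · intro h
    by_contra ha
    exact h (T.conj_c_eq hP ha)
  · exact T.conj_c_ne hP

/-- **Output of B10.** -/
theorem exists_psiChar [IsTotallyComplex F] :
    ∃ (n : ℕ) (ψ : HeightOneSpectrum (𝓞 E) → ZMod 4), PsiChar S T.c T.a n ψ ∧
      (∀ Q : HeightOneSpectrum (𝓞 M), Q.under (𝓞 F) ∉ S → T.b ∈ locPow 2 (Q.under (𝓞 F)) →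
        ψ (Q.under (𝓞 E)) = dbl (kum T.d Q)) ∧
      (∀ Q : HeightOneSpectrum (𝓞 M), Q.under (𝓞 F) ∉ S → T.a ∈ locPow 2 (Q.under (𝓞 F)) →
        T.b ∉ locPow 2 (Q.under (𝓞 F)) → ψ (Q.under (𝓞 E)) = 1 ∨ ψ (Q.under (𝓞 E)) = 3) := by
  classical
  have := T.galois_FE
  have := T.galois_EM
  obtain ⟨n, ψ, hψ, h1, h3, hin, hsp⟩ := T.exists_psi T.trivStmt
  have hodd : ∀ Q : HeightOneSpectrum (𝓞 M), Q.under (𝓞 F) ∉ S →
      T.a ∈ locPow 2 (Q.under (𝓞 F)) →
      T.b ∉ locPow 2 (Q.under (𝓞 F)) → ψ (Q.under (𝓞 E)) = 1 ∨ ψ (Q.under (𝓞 E)) = 3 := by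
    intro Q hQ ha hb
    refine h3 Q hQ ?_
    by_contra h
    exact hb ((T.conj_σ_ne_iff hQ ha).mp h)
  refine ⟨n, ψ, ⟨hψ, hin, hsp, ?_, ?_⟩, fun Q hQ hb => h1 Q hQ (T.conj_σ_ne_of_b hQ hb), hodd⟩
  · intro x
    have hω : ∀ w ∉ S, resF ψ w + dbl (kum T.a w) = 0 := by
      intro w hw
      obtain ⟨P, rfl⟩ := exists_below_eq E w
      by_cases hc : conj T.c P = P
      · have ha : T.a ∉ locPow 2 (P.under (𝓞 F)) := fun ha => T.conj_c_ne hw ha hc
        rw [resF_eq_of_conj_eq T.finrank_FE T.c_ne_one ψ (T.unr_FE P hw) hc, hin P hw hc,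
          (kum_eq_one_iff _ _).mpr ha, dbl_one]
        decide
      · have ha : T.a ∈ locPow 2 (P.under (𝓞 F)) := (T.conj_c_ne_iff hw).mp hc
        have he' := T.unr_FE (conj T.c P) (by rwa [below_conj])
        rw [below_conj] at he'
        rw [resF_eq_of_conj_ne T.finrank_FE T.c_ne_one ψ (T.unr_FE P hw) he' hc, hsp P hw hc,
          (kum_eq_zero_iff _ _).mpr ha, dbl_zero, add_zero]
    rw [toAdd_rayVal_up, ← rayVal_comp, ← toAdd_mul, ← rayVal_add]
    rw [rayVal_congr hω x]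
    exact toAdd_rayVal_of_ord_eq_zero S _ x (fun v _ => smul_zero _)
  · intro T'
    obtain ⟨w, hw, ha, hb⟩ := Quad.exists_split_inert (S ∪ T') T.not_sq_a T.not_sq_b_F T.not_sq_ab
    rw [Finset.mem_union, not_or] at hw
    obtain ⟨P, rfl⟩ := exists_below_eq E w
    obtain ⟨Q, rfl⟩ := exists_below_eq M P
    have hc := T.conj_c_ne hw.1 ha
    have h4 : ψ (Q.under (𝓞 E)) = 1 ∨ ψ (Q.under (𝓞 E)) = 3 := by
      rw [under_under] at ha hb hw
      exact hodd Q hw.1 ha hb
    have h5 := hsp _ hw.1 hc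
    rcases h4 with h4 | h4
    · refine ⟨_, hw.1, hw.2, hc, h4, ?_⟩
      rw [h4] at h5
      revert h5
      generalize ψ (conj T.c (Q.under (𝓞 E))) = z
      revert z
      decide
    · refine ⟨conj T.c (Q.under (𝓞 E)), by rw [below_conj]; exact hw.1,
        by rw [below_conj]; exact hw.2, ?_, ?_, ?_⟩
      · rw [conj_conj T.finrank_FE T.c_ne_one]
        exact fun h => hc h.symm
      · rw [h4] at h5
        revert h5
        generalize ψ (conj T.c (Q.under (𝓞 E))) = z
        revert z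
        decide
      · rw [conj_conj T.finrank_FE T.c_ne_one]
        exact h4

end TowerData

end Fermat.Agent.LT.Psi
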