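import Fermat.Agent.CFT.Global2.Unramified
import Fermat.Agent.LT.Ray

/-!
# Quadratic extensions `L / K`: places, norms, ideal Hilbert 90
-/

set_option autoImplicit false
set_option linter.unusedSectionVars false

namespace Fermat.Agent.LT.Psi

open IsDedekindDomain NumberField WithZero
open Fermat.Agent.CFT.SUnits (ord ord_one ord_mul ord_inv ord_pow ord_div ord_eq_zero_iff
  valuation_eq_exp_neg_ord finite_ord_ne_zero div div_apply)
open Fermat.Agent.CFT.Places
open Fermat.Agent.CFT.Global (E mem_E cong mem_cong locPow mem_locPow above mem_above normU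
  ClTrivial AboveP LocalSymbols IsNormFrom cong_anti)
open Fermat.Agent.CFT.Global2

section Gal

variable {K L : Type*} [Field K] [NumberField K] [Field L] [NumberField L] [Algebra K L]

/-- the Galois action on `Lˣ` -/
noncomputable abbrev galU (σ : L ≃ₐ[K] L) : Lˣ →* Lˣ := Units.map (σ : L →* L)

@[simp] lemma coe_galU (σ : L ≃ₐ[K] L) (x : Lˣ) : ((galU σ x : Lˣ) : L) = σ (x : L) := rfl

/-- the inclusion `Kˣ → Lˣ` -/
noncomputable abbrev up (L : Type*) {K : Type*} [Field K] [Field L] [Algebra K L] : Kˣ →* Lˣ :=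
  Units.map (algebraMap K L : K →* L)

@[simp] lemma coe_up (x : Kˣ) : ((up L x : Lˣ) : L) = algebraMap K L x := rfl

@[simp] lemma galU_up (σ : L ≃ₐ[K] L) (x : Kˣ) : galU σ (up L x) = up L x := by
  ext
  simp

lemma up_injective : Function.Injective (up L : Kˣ →* Lˣ) := by
  intro x y h
  ext
  exact (algebraMap K L).injective (congrArg Units.val h)

lemma ord_conj (σ : L ≃ₐ[K] L) (w : HeightOneSpectrum (𝓞 L)) (x : Lˣ) :
    ord (conj σ w) (galU σ x) = ord w x := by
  have h := valuation_conj σ w (x : L)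
  rw [← coe_galU, valuation_eq_exp_neg_ord, valuation_eq_exp_neg_ord, exp_inj] at h
  omega

lemma ord_up (w : HeightOneSpectrum (𝓞 L)) (x : Kˣ) :
    ord w (up L x) =
      ((w.under (𝓞 K)).asIdeal.ramificationIdx' w.asIdeal : ℤ) * ord (w.under (𝓞 K)) x := by
  have h := valuation_algebraMap w (x : K)
  rw [← coe_up, valuation_eq_exp_neg_ord, valuation_eq_exp_neg_ord, ← exp_nsmul] at h
  have h2 := exp_injective h
  rw [nsmul_eq_mul] at h2
  linarith

lemma mem_cong_conj (σ : L ≃ₐ[K] L) (w : HeightOneSpectrum (𝓞 L)) (n : ℕ) (x : Lˣ) :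
    galU σ x ∈ cong (conj σ w) n ↔ x ∈ cong w n := by
  rw [mem_cong, mem_cong]
  have h := valuation_conj σ w ((x : L) - 1)
  rw [map_sub, map_one] at h
  rw [coe_galU, h]

lemma mem_locPow_conj (p : ℕ) (σ : L ≃ₐ[K] L) (w : HeightOneSpectrum (𝓞 L)) (x : Lˣ) :
    galU σ x ∈ locPow p (conj σ w) ↔ x ∈ locPow p w := by
  have key : ∀ (τ : L ≃ₐ[K] L) (u : HeightOneSpectrum (𝓞 L)) (z : Lˣ), z ∈ locPow p u →
      galU τ z ∈ locPow p (conj τ u) := by
    intro τ u z hz
    rw [mem_locPow] at hz ⊢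
    intro n
    obtain ⟨y, hy⟩ := hz n
    refine ⟨galU τ y, ?_⟩
    have h := (mem_cong_conj τ u n (z / y ^ p)).mpr hy
    rw [mem_cong, _root_.map_div, map_pow] at h
    exact h
  constructor
  · intro h
    have h1 := key σ⁻¹ _ _ h
    have h2 : conj σ⁻¹ (conj σ w) = w := by
      rw [← Fermat.Agent.CFT.Places.conj_mul, inv_mul_cancel, conj_one]
    have h3 : galU σ⁻¹ (galU σ x) = x := by
      ext
      simp
    rwa [h2, h3] at h1
  · exact key σ w x

/-- transitivity on places above a place -/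
lemma exists_conj_eq [IsGalois K L] {w w' : HeightOneSpectrum (𝓞 L)}
    (h : w'.under (𝓞 K) = w.under (𝓞 K)) : ∃ τ : L ≃ₐ[K] L, conj τ w' = w := by
  have h1 : (w'.under (𝓞 K)).asIdeal = (w.under (𝓞 K)).asIdeal := by rw [h]
  have h3 : w'.asIdeal.LiesOver (w.under (𝓞 K)).asIdeal := by
    rw [← h1]
    infer_instance
  obtain ⟨τ, hτ⟩ := Ideal.exists_smul_eq_of_isGaloisGroup (w.under (𝓞 K)).asIdeal w'.asIdeal
    w.asIdeal Gal(L/K)
  refine ⟨τ, ?_⟩
  apply HeightOneSpectrum.ext
  rw [← Unr.smul_asIdeal, hτ]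

end Gal

section Quad

variable {K L : Type*} [Field K] [NumberField K] [Field L] [NumberField L] [Algebra K L]
  [IsGalois K L] (h2 : Module.finrank K L = 2) {σ : L ≃ₐ[K] L} (hσ : σ ≠ 1)

include h2 hσ in
lemma eq_or_eq_conj {w w' : HeightOneSpectrum (𝓞 L)} (h : w'.under (𝓞 K) = w.under (𝓞 K)) :
    w' = w ∨ w' = conj σ w := by
  have hG : Nat.card Gal(L/K) = 2 := by rw [IsGalois.card_aut_eq_finrank, h2]
  obtain ⟨τ, hτ⟩ := exists_conj_eq h.symm
  rcases Unr.eq_one_or_of_card_two hG hσ τ with rfl | rfl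
  · left
    rw [← hτ, conj_one]
  · right
    exact hτ.symm

include h2 hσ in
lemma sigma_sq : σ * σ = 1 := by
  ext x
  exact Unr.apply_apply h2 hσ x

include h2 hσ in
lemma conj_conj (w : HeightOneSpectrum (𝓞 L)) : conj σ (conj σ w) = w := by
  rw [← Fermat.Agent.CFT.Places.conj_mul, sigma_sq h2 hσ, conj_one]

include h2 hσ in
lemma galU_galU (x : Lˣ) : galU σ (galU σ x) = x := by
  ext
  exact Unr.apply_apply h2 hσ (x : L)

include h2 hσ in
lemma ord_galU (w : HeightOneSpectrum (𝓞 L)) (x : Lˣ) : ord w (galU σ x) = ord (conj σ w) x := by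
  have h := ord_conj σ (conj σ w) x
  rwa [conj_conj h2 hσ] at h

include h2 hσ in
lemma up_normU (x : Lˣ) : up L (normU (K := K) L x) = x * galU σ x := by
  ext
  exact Unr.norm_eq_mul h2 hσ (x : L)

include h2 hσ in
lemma normU_galU (x : Lˣ) : normU (K := K) L (galU σ x) = normU L x := by
  apply up_injective (L := L)
  rw [up_normU h2 hσ, up_normU h2 hσ, galU_galU h2 hσ, mul_comm]

include h2 in
lemma normU_up (x : Kˣ) : normU L (up L x) = x ^ 2 := by
  ext
  change Algebra.norm K (algebraMap K L x) = _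
  rw [Algebra.norm_algebraMap, h2, Units.val_pow_eq_pow_val]

include h2 hσ in
lemma ord_up_normU (w : HeightOneSpectrum (𝓞 L)) (x : Lˣ) :
    ord w (up L (normU (K := K) L x)) = ord w x + ord (conj σ w) x := by
  rw [up_normU h2 hσ, ord_mul, ord_galU h2 hσ]

lemma conj_mem_above (τ : L ≃ₐ[K] L) (S : Finset (HeightOneSpectrum (𝓞 K)))
    (w : HeightOneSpectrum (𝓞 L)) : conj τ w ∈ above L S ↔ w ∈ above L S := by
  rw [mem_above, mem_above, below_conj]

include h2 hσ in
/-- **Ideal Hilbert 90 + class number one**: an `S`-unit which is a norm is the norm of an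
`S`-unit. -/
theorem exists_normU_eq_of_mem_E {S : Finset (HeightOneSpectrum (𝓞 K))}
    (hCl : ClTrivial (above L S)) {u : Kˣ} (hu : u ∈ E S) (y₀ : Lˣ) (hy₀ : normU L y₀ = u) :
    ∃ y ∈ E (above L S), normU L y = u := by
  classical
  let rep : HeightOneSpectrum (𝓞 K) → HeightOneSpectrum (𝓞 L) := fun v =>
    Classical.choose (exists_below_eq L v)
  have hrep : ∀ v, (rep v).under (𝓞 K) = v := fun v => Classical.choose_spec (exists_below_eq L v)
  let D : HeightOneSpectrum (𝓞 L) →₀ ℤ := Finsupp.ofSupportFinite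
    (fun w => if w = rep (w.under (𝓞 K)) then ord w y₀ else 0) (by
      refine (finite_ord_ne_zero L y₀).subset fun w hw => ?_
      intro h
      apply hw
      change (if w = rep (w.under (𝓞 K)) then ord w y₀ else 0) = 0
      rw [h, ite_self])
  have hD : ∀ w, D w = if w = rep (w.under (𝓞 K)) then ord w y₀ else 0 := fun w => rfl
  obtain ⟨s, hs⟩ := hCl D
  have h0 : ∀ w ∉ above L S, ord w y₀ + ord (conj σ w) y₀ = 0 := by
    intro w hw
    rw [← ord_up_normU h2 hσ, hy₀, ord_up, mem_E.mp hu _ (fun h => hw ((mem_above L).mpr h)),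
      mul_zero]
  refine ⟨y₀ * (galU σ s / s), ?_, ?_⟩
  · rw [mem_E]
    intro w hw
    have hw' : conj σ w ∉ above L S := by rwa [conj_mem_above]
    rw [ord_mul, ord_div, ord_galU h2 hσ, hs w hw, hs _ hw', hD, hD, below_conj]
    have h1 := h0 w hw
    by_cases hf : conj σ w = w
    · rw [hf] at h1 ⊢
      omega
    · rcases eq_or_eq_conj h2 hσ (w := w) (w' := rep (w.under (𝓞 K))) (hrep _) with h | h
      · rw [h, if_neg hf, if_pos rfl]
        omega
      · rw [h, if_pos rfl, if_neg (Ne.symm hf)]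
        omega
  · rw [map_mul, _root_.map_div, normU_galU h2 hσ, div_self', mul_one, hy₀]

end Quad

end Fermat.Agent.LT.Psi
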