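import Fermat.Agent.LT.CubicChar
import Fermat.Agent.LT.Psi.Quad

/-!
# Quadratic Kummer characters are ray characters; restriction of ray characters
-/

set_option autoImplicit false
set_option linter.unusedSectionVars false

namespace Fermat.Agent.LT.Psi

open IsDedekindDomain NumberField WithZero
open Fermat.Agent.CFT.SUnits (ord ord_one ord_mul ord_inv ord_pow ord_div ord_eq_zero_iff
  valuation_eq_exp_neg_ord finite_ord_ne_zero div div_apply)
open Fermat.Agent.CFT.Places
open Fermat.Agent.CFT.Global (E mem_E cong mem_cong locPow mem_locPow above mem_above normU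
  ClTrivial AboveP LocalSymbols IsNormFrom cong_anti exists_cong_le_locPow)
open Fermat.Agent.CFT.Global2
open Fermat.Agent.CFT.Global hiding Inputs p_dvd_index exists_notMem_locPow exists_place powE mem_powE index_powE index_zpowers_sup_powE second hasse_norm FirstInequality exists_eq_nsmul_add exists_ne_symVec

section Kum

variable {K : Type*} [Field K] [NumberField K]

open Classical in
/-- the quadratic character of `K(√d)/K` on places: `0` if `d` is a local square -/
noncomputable def kum (d : Kˣ) (v : HeightOneSpectrum (𝓞 K)) : ZMod 2 :=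
  if d ∈ locPow 2 v then 0 else 1

lemma kum_eq_zero_iff (d : Kˣ) (v : HeightOneSpectrum (𝓞 K)) : kum d v = 0 ↔ d ∈ locPow 2 v := by
  rw [kum]
  split_ifs with h
  · simp [h]
  · simp [h]

lemma kum_eq_one_iff (d : Kˣ) (v : HeightOneSpectrum (𝓞 K)) : kum d v = 1 ↔ d ∉ locPow 2 v := by
  rw [kum]
  split_ifs with h
  · simp [h]
  · simp [h]

lemma zmod_two_eq {a b : ZMod 2} (h : a = 0 ↔ b = 0) : a = b := by
  revert a b
  decide

end Kum

section Recip

variable {K : Type} [Field K] [NumberField K] [IsTotallyComplex K]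

/-- **Quadratic reciprocity**: Kummer characters are ray characters. -/
theorem exists_isRay_kum {S : Finset (HeightOneSpectrum (𝓞 K))} (hS : AboveP 2 S) {d : Kˣ}
    (hd : d ∈ E S) : ∃ n, IsRay S n (kum d) := by
  classical
  obtain ⟨LS, hprod⟩ := exists_productFormula_two K
  choose n hn using fun v : HeightOneSpectrum (𝓞 K) => exists_cong_le_locPow 2 two_ne_zero v
  refine ⟨S.sup n, fun x hx => ?_⟩
  have h1 : ∀ v ∈ S, LS.sym v d x = 1 := fun v hv =>
    LS.sym_eq_one_of_right (hn v (cong_anti v (Finset.le_sup hv) (hx v hv)))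
  have h2 : ∀ v ∉ S, (LS.sym v d x).toAdd = ord v x • kum d v := by
    intro v hv
    apply zmod_two_eq
    have h3 : (LS.sym v d x).toAdd = 0 ↔ LS.sym v d x = 1 := Iff.rfl
    rw [h3, CubicChar.sym_eq_one_iff LS (fun h => hv (hS v h)) (mem_E.mp hd v hv) x,
      zsmul_eq_mul, mul_eq_zero, kum_eq_zero_iff, ZMod.intCast_zmod_eq_zero_iff_dvd, or_comm]
  apply toAdd_eq_zero.mp
  rw [toAdd_rayVal_eq_sum S ((div x).support ∪ (symVec LS two_ne_zero d x).support) (kum d) x]
  · have h4 : ∑ v ∈ (symVec LS two_ne_zero d x).support, (symVec LS two_ne_zero d x) v =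
        ∑ v ∈ (div x : HeightOneSpectrum (𝓞 K) →₀ ℤ).support ∪ (symVec LS two_ne_zero d x).support,
          (symVec LS two_ne_zero d x) v :=
      Finset.sum_subset Finset.subset_union_right fun v _ hv => Finsupp.notMem_support_iff.mp hv
    refine Eq.trans ?_ (hprod d x)
    rw [Finsupp.sum, h4]
    refine Finset.sum_congr rfl fun v _ => ?_
    by_cases hv : v ∈ S
    · rw [if_pos hv, symVec_apply, h1 v hv]
      rfl
    · rw [if_neg hv, symVec_apply, h2 v hv]
  · intro v hv _
    rw [Finset.mem_union, not_or, Finsupp.notMem_support_iff] at hv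
    rw [← div_apply, hv.1, zero_smul]

end Recip

section Res

variable {K L : Type*} [Field K] [NumberField K] [Field L] [NumberField L] [Algebra K L]
  {A : Type*} [AddCommGroup A]

lemma finite_under (v : HeightOneSpectrum (𝓞 K)) :
    {w : HeightOneSpectrum (𝓞 L) | w.under (𝓞 K) = v}.Finite := by
  have := Fermat.Agent.CFT.Global.finite_above L ({v} : Finset (HeightOneSpectrum (𝓞 K)))
  simpa using this

/-- restriction of a function on places of `L` to `K`: the value at `v` is the value at
`v 𝓞_L = ∏ w ^ e(w)` -/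
noncomputable def resF (η : HeightOneSpectrum (𝓞 L) → A) (v : HeightOneSpectrum (𝓞 K)) : A :=
  ∑ w ∈ (finite_under (L := L) v).toFinset, (v.asIdeal.ramificationIdx' w.asIdeal) • η w

open Classical in
lemma toAdd_rayVal_up (S : Finset (HeightOneSpectrum (𝓞 K))) (η : HeightOneSpectrum (𝓞 L) → A)
    (x : Kˣ) :
    (rayVal (above L S) η (up L x)).toAdd = (rayVal S (resF η) x).toAdd := by
  set T := (div x : HeightOneSpectrum (𝓞 K) →₀ ℤ).support with hT
  rw [toAdd_rayVal_eq_sum S T (resF η) x, toAdd_rayVal_eq_sum (above L S) (above L T) η (up L x)]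
  · rw [← Finset.sum_fiberwise_of_maps_to (s := above L T) (t := T)
      (g := fun w => w.under (𝓞 K)) (fun w hw => (mem_above L).mp hw)]
    refine Finset.sum_congr rfl fun v hv => ?_
    have hfil : (above L T).filter (fun w => w.under (𝓞 K) = v) =
        (finite_under (L := L) v).toFinset := by
      ext w
      rw [Finset.mem_filter, mem_above, Set.Finite.mem_toFinset, Set.mem_ofPred_eq]
      constructor
      · exact fun h => h.2
      · intro h
        exact ⟨by rwa [h], h⟩
    rw [hfil]
    by_cases hvS : v ∈ S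
    · rw [if_pos hvS]
      refine Finset.sum_eq_zero fun w hw => ?_
      rw [Set.Finite.mem_toFinset, Set.mem_ofPred_eq] at hw
      rw [if_pos ((mem_above L).mpr (by rwa [hw]))]
    · rw [if_neg hvS, resF, Finset.smul_sum]
      refine Finset.sum_congr rfl fun w hw => ?_
      rw [Set.Finite.mem_toFinset, Set.mem_ofPred_eq] at hw
      subst hw
      rw [if_neg (fun h => hvS ((mem_above L).mp h)), ord_up, mul_comm, mul_smul, natCast_zsmul]
  · intro w hw _
    have h1 : w.under (𝓞 K) ∉ T := fun h => hw ((mem_above L).mpr h)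
    rw [hT, Finsupp.notMem_support_iff, div_apply] at h1
    rw [ord_up, h1, mul_zero, zero_smul]
  · intro v hv _
    rw [hT, Finsupp.notMem_support_iff, div_apply] at hv
    rw [hv, zero_smul]

/-- restriction of ray characters -/
lemma IsRay.res {S : Finset (HeightOneSpectrum (𝓞 K))} {n : ℕ}
    {η : HeightOneSpectrum (𝓞 L) → A} (h : IsRay (above L S) n η) : IsRay S n (resF (K := K) η) := by
  intro x hx
  apply toAdd_eq_zero.mp
  rw [← toAdd_rayVal_up]
  apply toAdd_eq_zero.mpr
  exact h _ fun w hw => map_mem_cong w n (hx _ ((mem_above L).mp hw))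

end Res

end Fermat.Agent.LT.Psi
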