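import Fermat.Agent.LT.Psi.Data
import Mathlib.Analysis.SpecialFunctions.Complex.Circle

/-!
# The traces `x_w` and the values `i ^ ψ(P)`
-/

set_option autoImplicit false
set_option linter.unusedSectionVars false

namespace Fermat.Agent.LT.Psi

open IsDedekindDomain NumberField WithZero
open Fermat.Agent.CFT.SUnits (ord ord_one ord_mul ord_inv ord_pow ord_div ord_eq_zero_iff
  valuation_eq_exp_neg_ord finite_ord_ne_zero div div_apply)
open Fermat.Agent.CFT.Places
open Fermat.Agent.CFT.Global hiding Inputs p_dvd_index exists_notMem_locPow exists_place powE mem_powE index_powE index_zpowers_sup_powE second hasse_norm FirstInequality exists_eq_nsmul_add exists_ne_symVec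
open Fermat.Agent.CFT.Global2

/-- `i ^ z` -/
noncomputable def ip (z : ZMod 4) : ℂ := Complex.I ^ z.val

@[simp] lemma ip_zero : ip 0 = 1 := by simp [ip]

@[simp] lemma ip_one : ip 1 = Complex.I := by
  have : (1 : ZMod 4).val = 1 := rfl
  rw [ip, this, pow_one]

@[simp] lemma ip_two : ip 2 = -1 := by
  have : (2 : ZMod 4).val = 2 := rfl
  rw [ip, this, Complex.I_sq]

@[simp] lemma ip_three : ip 3 = -Complex.I := by
  have : (3 : ZMod 4).val = 3 := rfl
  rw [ip, this, Complex.I_pow_three]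

lemma ip_add (a b : ZMod 4) : ip (a + b) = ip a * ip b := by
  have h : ∀ n : ℕ, Complex.I ^ (n % 4) = Complex.I ^ n := fun n => by
    conv_rhs => rw [← Nat.div_add_mod n 4, pow_add, pow_mul, Complex.I_pow_four, one_pow, one_mul]
  rw [ip, ip, ip, ZMod.val_add, h, pow_add]

lemma ip_ne_zero (a : ZMod 4) : ip a ≠ 0 := pow_ne_zero _ Complex.I_ne_zero

lemma norm_ip (a : ZMod 4) : ‖ip a‖ = 1 := by
  rw [ip, norm_pow, Complex.norm_I, one_pow]

lemma ip_neg (a : ZMod 4) : ip (-a) = (ip a)⁻¹ := by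
  refine eq_inv_of_mul_eq_one_left ?_
  rw [← ip_add, neg_add_cancel, ip_zero]

/-- `z ↦ i ^ z` as a homomorphism -/
noncomputable def ipHom : Multiplicative (ZMod 4) →* ℂ where
  toFun z := ip z.toAdd
  map_one' := ip_zero
  map_mul' x y := ip_add _ _

@[simp] lemma ipHom_apply (z : Multiplicative (ZMod 4)) : ipHom z = ip z.toAdd := rfl

/-- `z ↦ i ^ z` as a homomorphism to `ℂˣ` -/
noncomputable def ipUnits : Multiplicative (ZMod 4) →* ℂˣ :=
  MonoidHom.toHomUnits ipHom

@[simp] lemma coe_ipUnits (z : Multiplicative (ZMod 4)) : (ipUnits z : ℂ) = ip z.toAdd := rfl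

lemma re_ip (a : ZMod 4) : (ip a).re = re4 a := by
  have h : a = 0 ∨ a = 1 ∨ a = 2 ∨ a = 3 := by
    revert a
    decide
  rcases h with rfl | rfl | rfl | rfl
  · simp [re4]
  · rw [ip_one]
    have : re4 1 = 0 := by decide
    rw [this]
    simp
  · rw [ip_two]
    have : re4 2 = -1 := by decide
    rw [this]
    simp
  · rw [ip_three]
    have : re4 3 = 0 := by decide
    rw [this]
    simp

lemma ip_dbl (z : ZMod 2) : ip (dbl z) = if z = 0 then 1 else -1 := by
  have h : z = 0 ∨ z = 1 := by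
    revert z
    decide
  rcases h with rfl | rfl
  · simp
  · simp

namespace TowerData

variable {F E M : Type} [Field F] [NumberField F] [Field E] [NumberField E] [Field M]
  [NumberField M] [Algebra F E] [Algebra E M] [Algebra F M] [IsScalarTower F E M]
  {S : Finset (HeightOneSpectrum (𝓞 F))} (T : TowerData F E M S)

/-- the quadratic character `ε` of `M(√d)/M` only depends on the place of `F` below -/
lemma kum_eq_of_under_eq {Q Q' : HeightOneSpectrum (𝓞 M)}
    (h : Q'.under (𝓞 F) = Q.under (𝓞 F)) : kum T.d Q' = kum T.d Q := by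
  have := T.galois_FE
  have := T.galois_EM
  have hP : (Q'.under (𝓞 E)).under (𝓞 F) = (Q.under (𝓞 E)).under (𝓞 F) := by
    rw [under_under, under_under, h]
  have key : ∀ R R' : HeightOneSpectrum (𝓞 M), R'.under (𝓞 E) = R.under (𝓞 E) →
      kum T.d R' = kum T.d R := by
    intro R R' hR
    rcases eq_or_eq_conj T.finrank_EM T.σ_ne_one hR with h | h
    · rw [h]
    · rw [h, ← conj_restrictScalars (F := F)]
      exact kum_conj T.quat_σ R
  rcases eq_or_eq_conj T.finrank_FE T.c_ne_one hP with h1 | h1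
  · exact key _ _ h1
  · rw [← kum_conj T.quat_τ Q]
    refine key _ _ ?_
    rw [h1, conj_under T.τ_α]

open Classical in
/-- the trace `x_w` of Frobenius at `w` in the two dimensional representation of the
quaternion group -/
noncomputable def xw (w : HeightOneSpectrum (𝓞 F)) : ℤ :=
  if T.a ∈ locPow 2 w ∧ T.b ∈ locPow 2 w then
    (if ∃ Q : HeightOneSpectrum (𝓞 M), Q.under (𝓞 F) = w ∧ kum T.d Q = 0 then 2 else -2)
  else 0

lemma xw_of_inert {w : HeightOneSpectrum (𝓞 F)} (h : T.a ∉ locPow 2 w) : T.xw w = 0 := by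
  rw [xw, if_neg (fun h' => h h'.1)]

lemma xw_of_not_b {w : HeightOneSpectrum (𝓞 F)} (h : T.b ∉ locPow 2 w) : T.xw w = 0 := by
  rw [xw, if_neg (fun h' => h h'.2)]

lemma xw_ne_zero_iff (w : HeightOneSpectrum (𝓞 F)) :
    T.xw w ≠ 0 ↔ T.a ∈ locPow 2 w ∧ T.b ∈ locPow 2 w := by
  rw [xw]
  split_ifs with h h' <;> simp [h]

lemma xw_eq {Q : HeightOneSpectrum (𝓞 M)} (ha : T.a ∈ locPow 2 (Q.under (𝓞 F)))
    (hb : T.b ∈ locPow 2 (Q.under (𝓞 F))) :
    (T.xw (Q.under (𝓞 F)) : ℂ) = 2 * ip (dbl (kum T.d Q)) := by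
  rw [xw, if_pos ⟨ha, hb⟩, ip_dbl]
  by_cases h : kum T.d Q = 0
  · rw [if_pos ⟨Q, rfl, h⟩, if_pos h]
    norm_num
  · rw [if_neg, if_neg h]
    · norm_num
    · rintro ⟨Q', hQ', h'⟩
      rw [T.kum_eq_of_under_eq hQ'] at h'
      exact h h'

lemma xw_values (w : HeightOneSpectrum (𝓞 F)) : T.xw w = 0 ∨ T.xw w = 2 ∨ T.xw w = -2 := by
  rw [xw]
  split_ifs <;> simp

/-- **Output of B10, with values.**  With `al P := i ^ ψ(P)`:
* `P` fixed by `c` (i.e. the place `w` below is inert): `al P = -1` and `x_w = 0`;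
* `P` moved: `al P * al (c P) = 1` and `al P + al (c P) = x_w`. -/
theorem exists_psi_trace [IsTotallyComplex F] :
    ∃ (n : ℕ) (ψ : HeightOneSpectrum (𝓞 E) → ZMod 4), PsiChar S T.c T.a n ψ ∧
      (∀ P : HeightOneSpectrum (𝓞 E), P.under (𝓞 F) ∉ S → conj T.c P = P →
        ip (ψ P) = -1 ∧ T.xw (P.under (𝓞 F)) = 0) ∧
      (∀ P : HeightOneSpectrum (𝓞 E), P.under (𝓞 F) ∉ S → conj T.c P ≠ P →
        ip (ψ P) * ip (ψ (conj T.c P)) = 1 ∧
        ip (ψ P) + ip (ψ (conj T.c P)) = T.xw (P.under (𝓞 F))) := by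
  obtain ⟨n, ψ, hψ, h1, h3⟩ := T.exists_psiChar
  refine ⟨n, ψ, hψ, ?_, ?_⟩
  · intro P hP hc
    refine ⟨by rw [hψ.inert P hP hc, ip_two], T.xw_of_inert fun ha => T.conj_c_ne hP ha hc⟩
  · intro P hP hc
    have hs := hψ.split P hP hc
    have hneg : ψ (conj T.c P) = - ψ P := (neg_eq_of_add_eq_zero_right hs).symm
    refine ⟨by rw [← ip_add, hs, ip_zero], ?_⟩
    have ha := (T.conj_c_ne_iff hP).mp hc
    obtain ⟨Q, rfl⟩ := exists_below_eq M P
    rw [under_under] at ha hP ⊢
    by_cases hb : T.b ∈ locPow 2 (Q.under (𝓞 F))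
    · have h4 := h1 Q hP hb
      rw [hneg, h4, T.xw_eq ha hb]
      have h5 : - dbl (kum T.d Q) = dbl (kum T.d Q) := by
        generalize kum T.d Q = z
        revert z
        decide
      rw [h5, two_mul]
    · rw [T.xw_of_not_b hb, hneg]
      rcases h3 Q hP ha hb with h4 | h4
      · have h5 : (-(1 : ZMod 4)) = 3 := by decide
        rw [h4, h5, ip_one, ip_three]
        simp
      · have h5 : (-(3 : ZMod 4)) = 1 := by decide
        rw [h4, h5, ip_one, ip_three]
        simp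

end TowerData

end Fermat.Agent.LT.Psi
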