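import Mathlib.Algebra.Module.CharacterModule
import Mathlib.Topology.Instances.AddCircle.Real
import Mathlib.Tactic

/-!
# Extension of characters with values in `ZMod 4`
-/

set_option autoImplicit false

namespace Fermat.Agent.LT.Psi

lemma exists_toAddCircle_eq {u : UnitAddCircle} (h : (4 : ℕ) • u = 0) :
    ∃ k : ZMod 4, ZMod.toAddCircle k = u := by
  obtain ⟨x, rfl⟩ := QuotientAddGroup.mk_surjective u
  have h1 : ((4 • x : ℝ) : UnitAddCircle) = 0 := h
  rw [AddCircle.coe_eq_zero_iff] at h1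
  obtain ⟨n, hn⟩ := h1
  refine ⟨(n : ZMod 4), ?_⟩
  rw [ZMod.toAddCircle_intCast]
  congr 1
  rw [zsmul_eq_mul, mul_one, nsmul_eq_mul] at hn
  rw [hn]
  push_cast
  ring

/-- additive version -/
theorem exists_extend_four_add {P G : Type*} [AddCommGroup P] [AddCommGroup G] (f : P →+ G)
    (g : P →+ ZMod 4) (hfg : ∀ p, f p = 0 → g p = 0)
    (hG : ∀ x : G, ∃ p, f p = (2 : ℕ) • x ∧ (2 : ℕ) • g p = 0) :
    ∃ χ : G →+ ZMod 4, ∀ p, χ (f p) = g p := by
  -- the map on the range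
  let j : ZMod 4 →+ UnitAddCircle := ZMod.toAddCircle
  let g₁ : P ⧸ f.ker →+ UnitAddCircle := QuotientAddGroup.lift f.ker (j.comp g) (by
    intro p hp
    change j (g p) = 0
    rw [hfg p hp, map_zero])
  let f₁ : P ⧸ f.ker →+ G := QuotientAddGroup.kerLift f
  obtain ⟨h, hh⟩ := (Module.Baer.of_divisible UnitAddCircle).extension_property_addMonoidHom
    f₁ (QuotientAddGroup.kerLift_injective f) g₁
  have hh' : ∀ p, h (f p) = j (g p) := fun p => DFunLike.congr_fun hh (QuotientAddGroup.mk p)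
  have h4 : ∀ x, (4 : ℕ) • h x = 0 := by
    intro x
    obtain ⟨p, hp, hp2⟩ := hG x
    have e : (4 : ℕ) • h x = (2 : ℕ) • h ((2 : ℕ) • x) := by
      rw [map_nsmul, smul_smul]
      rfl
    rw [e, ← hp, hh', ← map_nsmul, hp2, map_zero]
  choose k hk using fun x => exists_toAddCircle_eq (h4 x)
  have hinj : Function.Injective (ZMod.toAddCircle : ZMod 4 → UnitAddCircle) :=
    ZMod.toAddCircle_injective 4
  refine ⟨⟨⟨k, ?_⟩, ?_⟩, ?_⟩
  · apply hinj
    rw [hk, map_zero, map_zero]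
  · intro x y
    apply hinj
    rw [map_add, hk, hk, hk, map_add]
  · intro p
    apply hinj
    exact (hk _).trans (hh' p)

/-- multiplicative version -/
theorem exists_extend_four {P G : Type*} [CommGroup P] [CommGroup G] (f : P →* G)
    (g : P →* Multiplicative (ZMod 4)) (hfg : ∀ p, f p = 1 → g p = 1)
    (hG : ∀ x : G, ∃ p, f p = x ^ 2 ∧ g p ^ 2 = 1) :
    ∃ χ : G →* Multiplicative (ZMod 4), ∀ p, χ (f p) = g p := by
  obtain ⟨χ, hχ⟩ := exists_extend_four_add (MonoidHom.toAdditive f)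
    (MonoidHom.toAdditiveLeft g) (fun p hp => hfg p.toMul hp) (fun x => by
      obtain ⟨p, hp, hp2⟩ := hG x.toMul
      exact ⟨Additive.ofMul p, hp, hp2⟩)
  exact ⟨AddMonoidHom.toMultiplicativeRight χ, fun p => hχ (Additive.ofMul p)⟩

end Fermat.Agent.LT.Psi
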