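import Fermat.Agent.LT.Psi.Kummer
import Fermat.Agent.LT.Psi.Extend

/-!
# Descent of a quadratic ray character along the norm of a quadratic extension

`L / K` quadratic, `ε` a ray character of `L` with values in `ZMod 2`, invariant under
`Gal(L/K)`: there is a ray character `ψ` of `K` with values in `ZMod 4` such that
`ψ ∘ N = ε` (`ZMod 2 → ZMod 4`, `1 ↦ 2`).
-/

set_option autoImplicit false
set_option linter.unusedSectionVars false

namespace Fermat.Agent.LT.Psi

open IsDedekindDomain NumberField WithZero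
open Fermat.Agent.CFT.SUnits (ord ord_one ord_mul ord_inv ord_pow ord_div ord_eq_zero_iff
  valuation_eq_exp_neg_ord finite_ord_ne_zero div div_apply)
open Fermat.Agent.CFT.Places
open Fermat.Agent.CFT.Global hiding Inputs p_dvd_index exists_notMem_locPow exists_place powE mem_powE index_powE index_zpowers_sup_powE second hasse_norm FirstInequality exists_eq_nsmul_add exists_ne_symVec
open Fermat.Agent.CFT.Global2

section Hom

variable {K : Type*} [Field K] [NumberField K] {A : Type*} [AddCommGroup A]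

lemma ord_zpow (v : HeightOneSpectrum (𝓞 K)) (x : Kˣ) (n : ℤ) : ord v (x ^ n) = n * ord v x := by
  cases n with
  | ofNat k => rw [Int.ofNat_eq_natCast, zpow_natCast, ord_pow]
  | negSucc k => rw [zpow_negSucc, ord_inv, ord_pow, Int.negSucc_eq]; push_cast; ring

lemma ord_prod {ι : Type*} (v : HeightOneSpectrum (𝓞 K)) (T : Finset ι) (f : ι → Kˣ) :
    ord v (∏ i ∈ T, f i) = ∑ i ∈ T, ord v (f i) := by
  classical
  induction T using Finset.induction_on with
  | empty => simp
  | insert i T hi ih => rw [Finset.prod_insert hi, Finset.sum_insert hi, ord_mul, ih]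

/-- A homomorphism trivial on `S`-units comes from a function on places if `Cl_S = 0`. -/
theorem exists_eq_rayVal {S : Finset (HeightOneSpectrum (𝓞 K))} (hCl : ClTrivial S)
    (χ : Kˣ →* Multiplicative A) (hχ : ∀ u ∈ E S, χ u = 1) :
    ∃ ψ : HeightOneSpectrum (𝓞 K) → A, ∀ x, rayVal S ψ x = χ x := by
  classical
  choose π hπ using fun v : HeightOneSpectrum (𝓞 K) => hCl (Finsupp.single v 1)
  refine ⟨fun v => (χ (π v)).toAdd, fun x => ?_⟩
  apply Multiplicative.toAdd.injective
  set T : Finset (HeightOneSpectrum (𝓞 K)) :=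
    (div x : HeightOneSpectrum (𝓞 K) →₀ ℤ).support.filter (fun v => v ∉ S) with hT
  rw [toAdd_rayVal_eq_sum S T]
  · set y : Kˣ := ∏ v ∈ T, π v ^ (ord v x) with hy
    have h1 : x / y ∈ E S := by
      rw [mem_E]
      intro w hw
      rw [ord_div, hy, ord_prod]
      have h2 : ∀ v ∈ T, ord w (π v ^ (ord v x)) = if v = w then ord w x else 0 := by
        intro v _
        rw [ord_zpow, hπ v w hw, Finsupp.single_apply]
        split_ifs with h
        · rw [h, mul_one]
        · rw [mul_zero]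
      rw [Finset.sum_congr rfl h2, Finset.sum_ite_eq' T w]
      split_ifs with h
      · ring
      · rw [hT, Finset.mem_filter, Finsupp.mem_support_iff, div_apply] at h
        have : ord w x = 0 := by
          by_contra h0
          exact h ⟨h0, hw⟩
        rw [this]
        ring
    have h3 := hχ _ h1
    rw [_root_.map_div, div_eq_one] at h3
    rw [h3, hy, map_prod, toAdd_prod]
    refine Finset.sum_congr rfl fun v hv => ?_
    rw [hT, Finset.mem_filter] at hv
    rw [if_neg hv.2, map_zpow, toAdd_zpow]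
  · intro v hv hvS
    rw [hT, Finset.mem_filter, not_and, not_not, Finsupp.mem_support_iff, div_apply] at hv
    by_cases h0 : ord v x = 0
    · rw [h0, zero_smul]
    · exact absurd (hv h0) hvS

end Hom

section Quad

variable {K L : Type*} [Field K] [NumberField K] [Field L] [NumberField L] [Algebra K L]
  [IsGalois K L] (h2 : Module.finrank K L = 2) {σ : L ≃ₐ[K] L} (hσ : σ ≠ 1)

include h2 hσ in
open Classical in
lemma rayVal_galU {A : Type*} [AddCommGroup A] {S : Finset (HeightOneSpectrum (𝓞 K))}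
    {ε : HeightOneSpectrum (𝓞 L) → A} (hε : ∀ w ∉ above L S, ε (conj σ w) = ε w) (x : Lˣ) :
    rayVal (above L S) ε (galU σ x) = rayVal (above L S) ε x := by
  apply Multiplicative.toAdd.injective
  set T : Finset (HeightOneSpectrum (𝓞 L)) := (div x : HeightOneSpectrum (𝓞 L) →₀ ℤ).support with hT
  set U := T ∪ T.image (conj σ) with hU
  have hUσ : ∀ w ∈ U, conj σ w ∈ U := by
    intro w hw
    rw [hU, Finset.mem_union, Finset.mem_image] at hw ⊢
    rcases hw with hw | ⟨w', hw', rfl⟩
    · exact Or.inr ⟨w, hw, rfl⟩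
    · left
      rwa [conj_conj h2 hσ]
  rw [toAdd_rayVal_eq_sum (above L S) U, toAdd_rayVal_eq_sum (above L S) U]
  · refine Finset.sum_nbij' (conj σ) (conj σ) hUσ hUσ (fun w _ => conj_conj h2 hσ w)
      (fun w _ => conj_conj h2 hσ w) ?_
    intro w _
    by_cases hw : w ∈ above L S
    · rw [if_pos hw, if_pos ((conj_mem_above σ S w).mpr hw)]
    · rw [if_neg hw, if_neg (fun h => hw ((conj_mem_above σ S w).mp h)), ord_galU h2 hσ,
        hε w hw]
  · intro w hw _
    have h1 : w ∉ T := fun h => hw (Finset.mem_union_left _ h)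
    rw [hT, Finsupp.notMem_support_iff, div_apply] at h1
    rw [h1, zero_smul]
  · intro w hw _
    have h1 : conj σ w ∉ T := by
      intro h
      apply hw
      rw [hU, Finset.mem_union, Finset.mem_image]
      exact Or.inr ⟨_, h, conj_conj h2 hσ w⟩
    rw [hT, Finsupp.notMem_support_iff, div_apply] at h1
    rw [ord_galU h2 hσ, h1, zero_smul]

/-- the semi-local Hilbert 90 statement -/
def SemiLoc90 (σ : L ≃ₐ[K] L) (S : Finset (HeightOneSpectrum (𝓞 K))) : Prop :=
  ∀ n : ℕ, ∃ m : ℕ, ∀ c : Lˣ, (∀ v ∈ S, normU L c ∈ cong v m) →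
    ∃ y : Lˣ, ∀ w ∈ above L S, c * galU σ y / y ∈ cong w n

end Quad

section Main

variable {K : Type} {L : Type*} [Field K] [NumberField K] [IsTotallyComplex K] [Field L]
  [NumberField L] [Algebra K L] [IsGalois K L] (h2 : Module.finrank K L = 2)
  {σ : L ≃ₐ[K] L} (hσ : σ ≠ 1) {S : Finset (HeightOneSpectrum (𝓞 K))} (hS : AboveP 2 S)
  (hClL : ClTrivial (above L S)) {α : L} {a : Kˣ} (hα : α ^ 2 = algebraMap K L a)
  (hna : ∀ b : Kˣ, b ^ 2 ≠ a) (ha : a ∈ E S) (h90 : SemiLoc90 σ S)

include h2 hσ hS hClL hα hna ha h90 in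
/-- well-definedness of the descended character -/
theorem rayVal_eq_one_of_norm {A : Type*} [AddCommGroup A] {ε : HeightOneSpectrum (𝓞 L) → A}
    {n : ℕ} (hε : IsRay (above L S) n ε) (hεσ : ∀ w ∉ above L S, ε (conj σ w) = ε w) :
    ∃ m : ℕ, ∀ (y : Lˣ), ∀ u ∈ E S, (∀ v ∈ S, normU L y * u ∈ cong v m) →
      rayVal (above L S) ε y = 1 := by
  classical
  obtain ⟨LS, -⟩ := exists_productFormula_two K
  choose k hk using fun v : HeightOneSpectrum (𝓞 K) => exists_cong_le_locPow 2 two_ne_zero v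
  obtain ⟨m₀, hm₀⟩ := h90 n
  refine ⟨max m₀ (S.sup k), fun y u hu h => ?_⟩
  -- `u` is a norm
  have hsym : ∀ v, LS.sym v a u = 1 := by
    intro v
    by_cases hv : v ∈ S
    · have h1 : LS.sym v a (normU L y * u) = 1 := LS.sym_eq_one_of_right
        (hk v (cong_anti v ((Finset.le_sup hv).trans (le_max_right _ _)) (h v hv)))
      have h3 : LS.sym v a (normU L y) = 1 :=
        LS.norm_mem v a _ ((Unr.isNormFrom_iff h2 hα hna _).mpr ⟨(y : L), rfl⟩)
      rwa [map_mul, h3, one_mul] at h1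
    · exact LS.unit_mem v (fun h => hv (hS v h)) a u (mem_E.mp ha v hv) (mem_E.mp hu v hv)
  have hN := hasse_norm_all (Unr.isPrimitiveRoot_neg_one' K) LS hna u hsym
  obtain ⟨z, hz⟩ := (Unr.isNormFrom_iff h2 hα hna u).mp hN
  have hz0 : z ≠ 0 := by
    rintro rfl
    rw [Algebra.norm_zero] at hz
    exact u.ne_zero hz.symm
  obtain ⟨y₁, hy₁, hy₁u⟩ := exists_normU_eq_of_mem_E h2 hσ hClL hu (Units.mk0 z hz0)
    (Units.ext hz)
  obtain ⟨t, ht⟩ := hm₀ (y * y₁) (fun v hv => by
    rw [map_mul, hy₁u]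
    exact cong_anti v (le_max_left _ _) (h v hv))
  have h4 := hε _ ht
  rw [_root_.map_div, map_mul, map_mul, rayVal_of_mem_E _ _ hy₁, rayVal_galU h2 hσ hεσ, mul_one,
    mul_div_assoc, div_self', mul_one] at h4
  exact h4

/-- the doubling map `ZMod 2 → ZMod 4` -/
def dbl : ZMod 2 →+ ZMod 4 where
  toFun x := if x = 0 then 0 else 2
  map_zero' := rfl
  map_add' := by decide

@[simp] lemma dbl_zero : dbl 0 = 0 := rfl
@[simp] lemma dbl_one : dbl 1 = 2 := rfl

lemma dbl_injective : Function.Injective dbl := by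
  intro x y
  revert x y
  decide

lemma two_nsmul_dbl (x : ZMod 2) : (2 : ℕ) • dbl x = 0 := by
  revert x
  decide

include h2 hσ hS hClL hα hna ha h90 in
/-- **Descent along the norm.** -/
theorem exists_descent (hCl : ClTrivial S) {ε : HeightOneSpectrum (𝓞 L) → ZMod 2}
    {n : ℕ} (hε : IsRay (above L S) n ε) (hεσ : ∀ w ∉ above L S, ε (conj σ w) = ε w) :
    ∃ (m : ℕ) (ψ : HeightOneSpectrum (𝓞 K) → ZMod 4), IsRay S m ψ ∧
      ∀ y : Lˣ, (rayVal S ψ (normU L y)).toAdd = dbl (rayVal (above L S) ε y).toAdd := by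
  classical
  obtain ⟨m, hm⟩ := rayVal_eq_one_of_norm h2 hσ hS hClL hα hna ha h90 hε hεσ
  let V : Subgroup Kˣ := ⨅ v ∈ S, cong v m
  have hV : ∀ x : Kˣ, x ∈ V ↔ ∀ v ∈ S, x ∈ cong v m := by
    intro x
    simp only [V, Subgroup.mem_iInf]
  let H : Subgroup Kˣ := E S ⊔ V
  let g : Lˣ →* Multiplicative (ZMod 4) :=
    (AddMonoidHom.toMultiplicative dbl).comp (rayVal (above L S) ε)
  have hg : ∀ y, (g y).toAdd = dbl (rayVal (above L S) ε y).toAdd := fun y => rfl
  let f : Lˣ →* Kˣ ⧸ H := (QuotientGroup.mk' H).comp (normU L)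
  have hf : ∀ y, f y = QuotientGroup.mk' H (normU L y) := fun y => rfl
  obtain ⟨χ, hχ⟩ := exists_extend_four (P := Lˣ) (G := Kˣ ⧸ H) f g
    (by
      intro y hy
      have h1 : normU L y ∈ H := by
        rw [hf, QuotientGroup.mk'_apply, QuotientGroup.eq_one_iff] at hy
        exact hy
      obtain ⟨u, hu, x, hx, hux⟩ := Subgroup.mem_sup.mp h1
      have h3 : rayVal (above L S) ε y = 1 := by
        refine hm y u⁻¹ (inv_mem hu) fun v hv => ?_
        have h4 : normU L y * u⁻¹ = x := by
          rw [← hux, mul_comm u x, mul_inv_cancel_right]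
        rw [h4]
        exact (hV x).mp hx v hv
      apply toAdd_eq_zero.mp
      rw [hg, h3, toAdd_one, map_zero])
    (by
      intro x
      obtain ⟨x, rfl⟩ := QuotientGroup.mk'_surjective H x
      refine ⟨up L x, ?_, ?_⟩
      · rw [hf, normU_up h2, map_pow]
      · apply toAdd_eq_zero.mp
        rw [toAdd_pow, hg, two_nsmul_dbl])
  obtain ⟨ψ, hψ⟩ := exists_eq_rayVal hCl (χ.comp (QuotientGroup.mk' H)) (by
    intro u hu
    rw [MonoidHom.comp_apply, QuotientGroup.mk'_apply,
      (QuotientGroup.eq_one_iff u).mpr (Subgroup.mem_sup_left hu), map_one])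
  refine ⟨m, ψ, ?_, ?_⟩
  · intro x hx
    rw [hψ, MonoidHom.comp_apply, QuotientGroup.mk'_apply,
      (QuotientGroup.eq_one_iff x).mpr (Subgroup.mem_sup_right ((hV x).mpr hx)), map_one]
  · intro y
    rw [hψ]
    rw [MonoidHom.comp_apply, ← hf, hχ, hg]

end Main

end Fermat.Agent.LT.Psi
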