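import Fermat.Agent.LT.Psi.Types

/-!
# The character `ψ` of order four attached to a quaternion extension

`F ⊂ E ⊂ M`, `M / F` biquadratic, `M(√d) / F` a quaternion extension (`QuatCond`).
-/

set_option autoImplicit false
set_option linter.unusedSectionVars false

namespace Fermat.Agent.LT.Psi

open IsDedekindDomain NumberField WithZero
open Fermat.Agent.CFT.SUnits (ord ord_one ord_mul ord_inv ord_pow ord_div ord_eq_zero_iff
  valuation_eq_exp_neg_ord finite_ord_ne_zero div div_apply)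
open Fermat.Agent.CFT.Places
open Fermat.Agent.CFT.Global hiding Inputs p_dvd_index exists_notMem_locPow exists_place powE mem_powE index_powE index_zpowers_sup_powE second hasse_norm FirstInequality exists_eq_nsmul_add exists_ne_symVec
open Fermat.Agent.CFT.Global2

section Tower

variable {F E M : Type} [Field F] [NumberField F] [Field E] [NumberField E] [Field M]
  [NumberField M] [Algebra F E] [Algebra E M] [Algebra F M] [IsScalarTower F E M]

lemma under_under (Q : HeightOneSpectrum (𝓞 M)) :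
    (Q.under (𝓞 E)).under (𝓞 F) = Q.under (𝓞 F) := by
  ext x
  change algebraMap (𝓞 E) (𝓞 M) (algebraMap (𝓞 F) (𝓞 E) x) ∈ Q.asIdeal ↔
    algebraMap (𝓞 F) (𝓞 M) x ∈ Q.asIdeal
  have : algebraMap (𝓞 E) (𝓞 M) (algebraMap (𝓞 F) (𝓞 E) x) = algebraMap (𝓞 F) (𝓞 M) x := by
    apply RingOfIntegers.ext
    exact (IsScalarTower.algebraMap_apply F E M (x : F)).symm
  rw [this]

lemma above_above (S : Finset (HeightOneSpectrum (𝓞 F))) :
    above M (above E S) = above M S := by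
  ext Q
  rw [mem_above, mem_above, mem_above, under_under]

lemma conj_under {τ : M ≃ₐ[F] M} {c : E ≃ₐ[F] E}
    (h : ∀ x : E, τ (algebraMap E M x) = algebraMap E M (c x)) (Q : HeightOneSpectrum (𝓞 M)) :
    (conj τ Q).under (𝓞 E) = conj c (Q.under (𝓞 E)) := by
  ext x
  rw [mem_conj]
  change algebraMap (𝓞 E) (𝓞 M) x ∈ (conj τ Q).asIdeal ↔
    algebraMap (𝓞 E) (𝓞 M) ((RingOfIntegers.mapRingEquiv (c : E ≃+* E)).symm x) ∈ Q.asIdeal
  rw [mem_conj]
  have : (RingOfIntegers.mapRingEquiv (τ : M ≃+* M)).symm (algebraMap (𝓞 E) (𝓞 M) x) =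
      algebraMap (𝓞 E) (𝓞 M) ((RingOfIntegers.mapRingEquiv (c : E ≃+* E)).symm x) := by
    apply RingOfIntegers.ext
    change τ.symm (algebraMap E M (x : E)) = algebraMap E M (c.symm (x : E))
    rw [AlgEquiv.symm_apply_eq, h, AlgEquiv.apply_symm_apply]
  rw [this]

lemma conj_restrictScalars (σ : M ≃ₐ[E] M) (Q : HeightOneSpectrum (𝓞 M)) :
    conj (σ.restrictScalars F) Q = conj σ Q := rfl

end Tower

/-- the statement (T1) -/
def TrivStmt {F : Type*} [Field F] [NumberField F] (S : Finset (HeightOneSpectrum (𝓞 F)))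
    (a b : Fˣ) : Prop :=
  ∀ (n : ℕ) (η : HeightOneSpectrum (𝓞 F) → ZMod 2), IsRay S n η →
    (∀ w ∉ S, ¬ (a ∈ locPow 2 w ∧ b ∉ locPow 2 w) → η w = 0) → ∀ w ∉ S, η w = 0

/-- The data of a biquadratic tower with a quaternion extension on top, unramified outside `S`. -/
structure TowerData (F E M : Type) [Field F] [NumberField F] [Field E] [NumberField E] [Field M]
    [NumberField M] [Algebra F E] [Algebra E M] [Algebra F M] [IsScalarTower F E M]
    (S : Finset (HeightOneSpectrum (𝓞 F))) where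
  /-- the generator of `Gal(M/E)` -/
  σ : M ≃ₐ[E] M
  /-- an element of `Gal(M/F)` not in `Gal(M/E)` -/
  τ : M ≃ₐ[F] M
  /-- the generator of `Gal(E/F)` -/
  c : E ≃ₐ[F] E
  /-- `E = F(√a)` -/
  a : Fˣ
  /-- `M = E(√b)` -/
  b : Fˣ
  /-- `√a` -/
  α : E
  /-- `√b` -/
  β : M
  /-- the quaternion extension is `M(√d)` -/
  d : Mˣ
  finrank_FE : Module.finrank F E = 2
  finrank_EM : Module.finrank E M = 2
  galois_FE : IsGalois F E
  galois_EM : IsGalois E M
  sq_α : α ^ 2 = algebraMap F E a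
  sq_β : β ^ 2 = algebraMap F M b
  c_α : c α = -α
  σ_β : σ β = -β
  τ_α : ∀ x : E, τ (algebraMap E M x) = algebraMap E M (c x)
  τ_τ : ∀ x, τ (τ x) = x
  σ_τ : ∀ x, σ (τ x) = τ (σ x)
  two_mem : AboveP 2 S
  ord_a : ∀ v ∉ S, ord v a = 0
  ord_b : ∀ v ∉ S, ord v b = 0
  ord_d : ∀ w ∉ above M S, ord w d = 0
  cl_E : ClTrivial (above E S)
  cl_M : ClTrivial (above M S)
  unr_FE : ∀ P : HeightOneSpectrum (𝓞 E), P.under (𝓞 F) ∉ S →
    (P.under (𝓞 F)).asIdeal.ramificationIdx' P.asIdeal = 1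
  unr_EM : ∀ Q : HeightOneSpectrum (𝓞 M), Q.under (𝓞 F) ∉ S →
    (Q.under (𝓞 E)).asIdeal.ramificationIdx' Q.asIdeal = 1
  quat_σ : QuatCond (σ.restrictScalars F) d
  quat_τ : QuatCond τ d
  quat_στ : QuatCond (σ.restrictScalars F * τ) d


lemma TrivStmt.of_IsRay_dbl {F : Type*} [Field F] [NumberField F]
    {S : Finset (HeightOneSpectrum (𝓞 F))} {n : ℕ} {η : HeightOneSpectrum (𝓞 F) → ZMod 2}
    (h : IsRay S n (fun v => dbl (η v))) : IsRay S n η := by
  intro x hx
  have h1 := h x hx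
  have h2 : dbl (rayVal S η x).toAdd = dbl 0 := by
    rw [← rayVal_comp, h1, map_zero]
    rfl
  exact toAdd_eq_zero.mp (dbl_injective h2)

section ResQuad

variable {F E : Type*} [Field F] [NumberField F] [Field E] [NumberField E] [Algebra F E]
  [IsGalois F E] (h2 : Module.finrank F E = 2) {c : E ≃ₐ[F] E} (hc : c ≠ 1)

include h2 hc in
lemma resF_eq_of_conj_eq {A : Type*} [AddCommGroup A] (ψ : HeightOneSpectrum (𝓞 E) → A)
    {P : HeightOneSpectrum (𝓞 E)} (he : (P.under (𝓞 F)).asIdeal.ramificationIdx' P.asIdeal = 1)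
    (hP : conj c P = P) : resF ψ (P.under (𝓞 F)) = ψ P := by
  classical
  have h1 : (finite_under (L := E) (P.under (𝓞 F))).toFinset = {P} := by
    ext P'
    rw [Set.Finite.mem_toFinset, Set.mem_ofPred_eq, Finset.mem_singleton]
    constructor
    · intro h
      rcases eq_or_eq_conj h2 hc h with h | h
      · exact h
      · rw [h, hP]
    · rintro rfl
      rfl
  rw [resF, h1, Finset.sum_singleton, he, one_smul]

include h2 hc in
lemma resF_eq_of_conj_ne {A : Type*} [AddCommGroup A] (ψ : HeightOneSpectrum (𝓞 E) → A)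
    {P : HeightOneSpectrum (𝓞 E)} (he : (P.under (𝓞 F)).asIdeal.ramificationIdx' P.asIdeal = 1)
    (he' : (P.under (𝓞 F)).asIdeal.ramificationIdx' (conj c P).asIdeal = 1)
    (hP : conj c P ≠ P) : resF ψ (P.under (𝓞 F)) = ψ P + ψ (conj c P) := by
  classical
  have h1 : (finite_under (L := E) (P.under (𝓞 F))).toFinset = {P, conj c P} := by
    ext P'
    rw [Set.Finite.mem_toFinset, Set.mem_ofPred_eq, Finset.mem_insert, Finset.mem_singleton]
    constructor
    · exact fun h => eq_or_eq_conj h2 hc h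
    · rintro (rfl | rfl)
      · rfl
      · exact below_conj c P
  rw [resF, h1, Finset.sum_pair (Ne.symm hP), he, he', one_smul, one_smul]

end ResQuad

namespace TowerData

variable {F E M : Type} [Field F] [NumberField F] [Field E] [NumberField E] [Field M]
  [NumberField M] [Algebra F E] [Algebra E M] [Algebra F M] [IsScalarTower F E M]
  {S : Finset (HeightOneSpectrum (𝓞 F))} (T : TowerData F E M S)

include T

lemma α_ne_zero : T.α ≠ 0 := by
  intro h
  have h1 := T.sq_α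
  rw [h, zero_pow two_ne_zero] at h1
  exact (map_ne_zero (algebraMap F E)).mpr T.a.ne_zero h1.symm

lemma β_ne_zero : T.β ≠ 0 := by
  intro h
  have h1 := T.sq_β
  rw [h, zero_pow two_ne_zero] at h1
  exact (map_ne_zero (algebraMap F M)).mpr T.b.ne_zero h1.symm

lemma c_ne_one : T.c ≠ 1 := by
  intro h
  have h1 := T.c_α
  rw [h, AlgEquiv.one_apply, self_eq_neg] at h1
  exact T.α_ne_zero h1

lemma σ_ne_one : T.σ ≠ 1 := by
  intro h
  have h1 := T.σ_β
  rw [h, AlgEquiv.one_apply, self_eq_neg] at h1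
  exact T.β_ne_zero h1

lemma two_notMem {Q : HeightOneSpectrum (𝓞 M)} (hQ : Q.under (𝓞 F) ∉ S) :
    (2 : 𝓞 M) ∉ Q.asIdeal := by
  intro h
  apply hQ
  apply T.two_mem
  change algebraMap (𝓞 F) (𝓞 M) ((2 : ℕ) : 𝓞 F) ∈ Q.asIdeal
  rw [map_natCast]
  exact h

lemma two_notMem_E {P : HeightOneSpectrum (𝓞 E)} (hP : P.under (𝓞 F) ∉ S) :
    (2 : 𝓞 E) ∉ P.asIdeal := by
  intro h
  apply hP
  apply T.two_mem
  change algebraMap (𝓞 F) (𝓞 E) ((2 : ℕ) : 𝓞 F) ∈ P.asIdeal
  rw [map_natCast]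
  exact h

lemma two_notMem_F {w : HeightOneSpectrum (𝓞 F)} (hw : w ∉ S) :
    (2 : 𝓞 F) ∉ w.asIdeal := fun h => hw (T.two_mem w h)

lemma conj_σ_ne_of_b {Q : HeightOneSpectrum (𝓞 M)} (hQ : Q.under (𝓞 F) ∉ S)
    (hb : T.b ∈ locPow 2 (Q.under (𝓞 F))) : conj T.σ Q ≠ Q := by
  rw [← conj_restrictScalars (F := F)]
  exact conj_ne_of_mem_locPow (T.two_notMem hQ) T.sq_β T.σ_β hb

lemma conj_σ_ne_of_ab {Q : HeightOneSpectrum (𝓞 M)} (hQ : Q.under (𝓞 F) ∉ S)
    (hb : T.a * T.b ∈ locPow 2 (Q.under (𝓞 F))) : conj T.σ Q ≠ Q := by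
  rw [← conj_restrictScalars (F := F)]
  refine conj_ne_of_mem_locPow (T.two_notMem hQ) (α := algebraMap E M T.α * T.β) ?_ ?_ hb
  · rw [mul_pow, ← map_pow, T.sq_α, T.sq_β, ← IsScalarTower.algebraMap_apply, Units.val_mul,
      map_mul]
  · change T.σ (algebraMap E M T.α * T.β) = _
    rw [map_mul, AlgEquiv.commutes, T.σ_β, mul_neg]

lemma conj_c_ne {P : HeightOneSpectrum (𝓞 E)} (hP : P.under (𝓞 F) ∉ S)
    (ha : T.a ∈ locPow 2 (P.under (𝓞 F))) : conj T.c P ≠ P :=
  conj_ne_of_mem_locPow (T.two_notMem_E hP) T.sq_α T.c_α ha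

lemma conj_c_eq {P : HeightOneSpectrum (𝓞 E)} (hP : P.under (𝓞 F) ∉ S)
    (ha : T.a ∉ locPow 2 (P.under (𝓞 F))) : conj T.c P = P := by
  have := T.galois_FE
  by_contra h
  exact ha (Unr.mem_locPow_of_conj_ne T.finrank_FE T.c_ne_one T.sq_α T.c_α h (T.unr_FE P hP))

lemma στ_sq : (T.σ.restrictScalars F * T.τ) * (T.σ.restrictScalars F * T.τ) = 1 := by
  have := T.galois_EM
  ext x
  change T.σ (T.τ (T.σ (T.τ x))) = x
  rw [T.σ_τ x, T.τ_τ, Unr.apply_apply T.finrank_EM T.σ_ne_one]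

lemma σ_sq : (T.σ.restrictScalars F) * (T.σ.restrictScalars F) = 1 := by
  have := T.galois_EM
  ext x
  exact Unr.apply_apply T.finrank_EM T.σ_ne_one x

lemma τ_sq : T.τ * T.τ = 1 := by
  ext x
  exact T.τ_τ x

lemma comm : T.σ.restrictScalars F * T.τ = T.τ * T.σ.restrictScalars F := by
  ext x
  exact T.σ_τ x

/-- inert in `E`: then `P` splits in `M` and the places above are inert in `M(√d)` -/
lemma type_inert [IsTotallyComplex F] {Q : HeightOneSpectrum (𝓞 M)} (hQ : Q.under (𝓞 F) ∉ S)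
    (ha : T.a ∉ locPow 2 (Q.under (𝓞 F))) : conj T.σ Q ≠ Q ∧ kum T.d Q = 1 := by
  have := T.galois_FE
  have := T.galois_EM
  have h1 : conj T.σ Q ≠ Q := by
    by_cases hb : T.b ∈ locPow 2 (Q.under (𝓞 F))
    · exact T.conj_σ_ne_of_b hQ hb
    · exact T.conj_σ_ne_of_ab hQ (mem_locPow_or (T.two_notMem_F hQ) (T.ord_a _ hQ) (T.ord_b _ hQ)
        ha hb)
  refine ⟨h1, ?_⟩
  rw [kum_eq_one_iff]
  have hP : (Q.under (𝓞 E)).under (𝓞 F) ∉ S := by rwa [under_under]
  have h3 : conj T.c (Q.under (𝓞 E)) = Q.under (𝓞 E) := by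
    refine T.conj_c_eq hP ?_
    rwa [under_under]
  have h4 : (conj T.τ Q).under (𝓞 E) = Q.under (𝓞 E) := by
    rw [conj_under T.τ_α, h3]
  rcases eq_or_eq_conj T.finrank_EM T.σ_ne_one h4 with h | h
  · exact notMem_locPow_of_conj_eq (T.two_notMem hQ) T.quat_τ T.τ_sq h
  · refine notMem_locPow_of_conj_eq (T.two_notMem hQ) T.quat_στ T.στ_sq ?_
    rw [Fermat.Agent.CFT.Places.conj_mul, h, conj_restrictScalars,
      conj_conj T.finrank_EM T.σ_ne_one]

/-- `σ` fixes `Q`: then `Q` is inert in `M(√d)` -/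
lemma kum_of_conj_σ_eq {Q : HeightOneSpectrum (𝓞 M)} (hQ : Q.under (𝓞 F) ∉ S)
    (h : conj T.σ Q = Q) : kum T.d Q = 1 := by
  rw [kum_eq_one_iff]
  exact notMem_locPow_of_conj_eq (T.two_notMem hQ) T.quat_σ T.σ_sq h

lemma conj_σ_conj_τ (Q : HeightOneSpectrum (𝓞 M)) :
    conj T.σ (conj T.τ Q) = conj T.τ (conj T.σ Q) := by
  change conj (T.σ.restrictScalars F) (conj T.τ Q) = conj T.τ (conj (T.σ.restrictScalars F) Q)
  rw [← Fermat.Agent.CFT.Places.conj_mul, ← Fermat.Agent.CFT.Places.conj_mul, T.comm]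

lemma conj_injective (g : M ≃ₐ[F] M) : Function.Injective (conj g) := by
  intro Q Q' h
  have h1 := congrArg (conj g⁻¹) h
  rwa [← Fermat.Agent.CFT.Places.conj_mul, ← Fermat.Agent.CFT.Places.conj_mul, inv_mul_cancel,
    conj_one, conj_one] at h1

lemma totallyComplex_E [IsTotallyComplex F] : IsTotallyComplex E := isTotallyComplex_of_algebra F E

lemma totallyComplex_M [IsTotallyComplex F] : IsTotallyComplex M := isTotallyComplex_of_algebra F M

lemma not_sq_b (x : Eˣ) : x ^ 2 ≠ up E T.b := by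
  intro h
  have h1 : (algebraMap E M x) ^ 2 = T.β ^ 2 := by
    rw [T.sq_β, IsScalarTower.algebraMap_apply F E M, ← map_pow]
    congr 1
    exact congrArg Units.val h
  rcases sq_eq_sq_iff_eq_or_eq_neg.mp h1 with h2 | h2
  · have h3 := T.σ_β
    rw [← h2, AlgEquiv.commutes, self_eq_neg] at h3
    exact (map_ne_zero (algebraMap E M)).mpr x.ne_zero h3
  · have h3 := T.σ_β
    have h4 : T.β = algebraMap E M (-x) := by rw [map_neg, h2, neg_neg]
    rw [h4, AlgEquiv.commutes, self_eq_neg] at h3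
    exact (map_ne_zero (algebraMap E M)).mpr (neg_ne_zero.mpr x.ne_zero) h3

/-- the character `ψ` before the determination of its restriction to `F` -/
theorem exists_psi_aux [IsTotallyComplex F] :
    ∃ (n : ℕ) (ψ : HeightOneSpectrum (𝓞 E) → ZMod 4), IsRay (above E S) n ψ ∧
      (∀ Q : HeightOneSpectrum (𝓞 M), Q.under (𝓞 F) ∉ S → conj T.σ Q ≠ Q →
        ψ (Q.under (𝓞 E)) = dbl (kum T.d Q)) ∧
      (∀ Q : HeightOneSpectrum (𝓞 M), Q.under (𝓞 F) ∉ S → conj T.σ Q = Q →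
        ψ (Q.under (𝓞 E)) = 1 ∨ ψ (Q.under (𝓞 E)) = 3) := by
  have := T.galois_EM
  have := T.totallyComplex_E
  have := T.totallyComplex_M
  have hSE : AboveP 2 (above E S) := by
    intro P hP
    rw [mem_above]
    by_contra h
    exact T.two_notMem_E h (by exact_mod_cast hP)
  have hSM : AboveP 2 (above M S) := by
    intro P hP
    rw [mem_above]
    by_contra h
    exact T.two_notMem h (by exact_mod_cast hP)
  obtain ⟨n₀, hn₀⟩ := exists_isRay_kum hSM (d := T.d) (mem_E.mpr T.ord_d)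
  have hb : up E T.b ∈ Fermat.Agent.CFT.Global.E (above E S) :=
    map_mem_E S (mem_E.mpr T.ord_b)
  have hβ : T.β ^ 2 = algebraMap E M (up E T.b : Eˣ) := by
    rw [T.sq_β, coe_up, ← IsScalarTower.algebraMap_apply]
  have hcl : ClTrivial (above M (above E S)) := by
    rw [above_above]
    exact T.cl_M
  obtain ⟨n, ψ, hψ, hψN⟩ := exists_descent T.finrank_EM T.σ_ne_one hSE hcl hβ T.not_sq_b hb
    (semiLoc90 T.finrank_EM T.σ_ne_one (above E S)) T.cl_E (ε := kum T.d) (n := n₀)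
    (by rwa [above_above]) (fun Q _ => by
      rw [← conj_restrictScalars (F := F)]
      exact kum_conj T.quat_σ Q)
  have hun : ∀ Q : HeightOneSpectrum (𝓞 M), Q ∉ above M (above E S) →
      (Q.under (𝓞 E)).asIdeal.ramificationIdx' Q.asIdeal = 1 := by
    intro Q hQ
    rw [above_above, mem_above] at hQ
    exact T.unr_EM Q hQ
  have hval := fun (Q : HeightOneSpectrum (𝓞 M)) (hQ : Q ∉ above M (above E S)) =>
    values_of_descent T.finrank_EM T.σ_ne_one hcl hun dbl hψN hQ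
  refine ⟨n, ψ, hψ, ?_, ?_⟩
  · intro Q hQ hσ
    have h := hval Q (by rwa [above_above, mem_above])
    rw [if_neg hσ, one_smul] at h
    exact h
  · intro Q hQ hσ
    have h := hval Q (by rwa [above_above, mem_above])
    rw [if_pos hσ, T.kum_of_conj_σ_eq hQ hσ] at h
    revert h
    generalize ψ (Q.under (𝓞 E)) = z
    revert z
    decide

/-- **Main theorem of B10.** -/
theorem exists_psi [IsTotallyComplex F] (hT : TrivStmt S T.a T.b) :
    ∃ (n : ℕ) (ψ : HeightOneSpectrum (𝓞 E) → ZMod 4), IsRay (above E S) n ψ ∧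
      (∀ Q : HeightOneSpectrum (𝓞 M), Q.under (𝓞 F) ∉ S → conj T.σ Q ≠ Q →
        ψ (Q.under (𝓞 E)) = dbl (kum T.d Q)) ∧
      (∀ Q : HeightOneSpectrum (𝓞 M), Q.under (𝓞 F) ∉ S → conj T.σ Q = Q →
        ψ (Q.under (𝓞 E)) = 1 ∨ ψ (Q.under (𝓞 E)) = 3) ∧
      (∀ P : HeightOneSpectrum (𝓞 E), P.under (𝓞 F) ∉ S → conj T.c P = P → ψ P = 2) ∧
      (∀ P : HeightOneSpectrum (𝓞 E), P.under (𝓞 F) ∉ S → conj T.c P ≠ P →
        ψ P + ψ (conj T.c P) = 0) := by
  classical
  have := T.galois_FE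
  have := T.galois_EM
  obtain ⟨n, ψ, hψ, h1, h3⟩ := T.exists_psi_aux
  obtain ⟨n₀, hn₀⟩ := exists_isRay_kum T.two_mem (d := T.a) (mem_E.mpr T.ord_a)
  -- `ω`
  let ω : HeightOneSpectrum (𝓞 F) → ZMod 4 := fun w => resF ψ w + dbl (kum T.a w)
  have hω : IsRay S (max n n₀) ω :=
    ((IsRay.res hψ).mono (le_max_left _ _)).add ((hn₀.mono (le_max_right _ _)).comp dbl)
  let η : HeightOneSpectrum (𝓞 F) → ZMod 2 := fun w => if ω w = 0 then 0 else 1
  -- inert places
  have hinert : ∀ P : HeightOneSpectrum (𝓞 E), P.under (𝓞 F) ∉ S → conj T.c P = P → ψ P = 2 := by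
    intro P hP hc
    obtain ⟨Q, rfl⟩ := exists_below_eq M P
    rw [under_under] at hP
    have ha : T.a ∉ locPow 2 (Q.under (𝓞 F)) := by
      intro ha
      rw [← under_under (E := E)] at ha hP
      exact T.conj_c_ne hP ha hc
    obtain ⟨h4, h5⟩ := T.type_inert hP ha
    rw [h1 Q hP h4, h5, dbl_one]
  -- the values of `ω`
  have hωA : ∀ w ∉ S, T.a ∉ locPow 2 w → ω w = 0 := by
    intro w hw ha
    obtain ⟨P, rfl⟩ := exists_below_eq E w
    have hc := T.conj_c_eq hw ha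
    simp only [ω]
    rw [resF_eq_of_conj_eq T.finrank_FE T.c_ne_one ψ (T.unr_FE P hw) hc, hinert P hw hc,
      (kum_eq_one_iff _ _).mpr ha, dbl_one]
    decide
  have hωB : ∀ P : HeightOneSpectrum (𝓞 E), P.under (𝓞 F) ∉ S → conj T.c P ≠ P →
      ω (P.under (𝓞 F)) = ψ P + ψ (conj T.c P) := by
    intro P hP hc
    have ha : T.a ∈ locPow 2 (P.under (𝓞 F)) := by
      by_contra ha
      exact hc (T.conj_c_eq hP ha)
    have he' := T.unr_FE (conj T.c P) (by rwa [below_conj])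
    rw [below_conj] at he'
    simp only [ω]
    rw [resF_eq_of_conj_ne T.finrank_FE T.c_ne_one ψ (T.unr_FE P hP) he' hc,
      (kum_eq_zero_iff _ _).mpr ha, dbl_zero, add_zero]
  have hτQ : ∀ Q : HeightOneSpectrum (𝓞 M), (conj T.τ Q).under (𝓞 E) =
      conj T.c (Q.under (𝓞 E)) := conj_under T.τ_α
  -- type B1
  have hB1 : ∀ Q : HeightOneSpectrum (𝓞 M), Q.under (𝓞 F) ∉ S → conj T.σ Q ≠ Q →
      ψ (Q.under (𝓞 E)) + ψ (conj T.c (Q.under (𝓞 E))) = 0 := by
    intro Q hQ hσ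
    have hQ' : (conj T.τ Q).under (𝓞 F) ∉ S := by rwa [below_conj]
    have hσ' : conj T.σ (conj T.τ Q) ≠ conj T.τ Q := by
      intro h
      rw [T.conj_σ_conj_τ] at h
      exact hσ (T.conj_injective _ h)
    rw [← hτQ, h1 Q hQ hσ, h1 _ hQ' hσ', kum_conj T.quat_τ, ← two_nsmul, two_nsmul_dbl]
  have hB2 : ∀ Q : HeightOneSpectrum (𝓞 M), Q.under (𝓞 F) ∉ S → conj T.σ Q = Q →
      ψ (Q.under (𝓞 E)) + ψ (conj T.c (Q.under (𝓞 E))) = 0 ∨
      ψ (Q.under (𝓞 E)) + ψ (conj T.c (Q.under (𝓞 E))) = 2 := by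
    intro Q hQ hσ
    have hQ' : (conj T.τ Q).under (𝓞 F) ∉ S := by rwa [below_conj]
    have hσ' : conj T.σ (conj T.τ Q) = conj T.τ Q := by
      rw [T.conj_σ_conj_τ, hσ]
    have h4 := h3 Q hQ hσ
    have h5 := h3 _ hQ' hσ'
    rw [hτQ] at h5
    rcases h4 with h4 | h4 <;> rcases h5 with h5 | h5 <;> rw [h4, h5] <;> decide
  -- `ω = 2 η`
  have hηω : ∀ w ∉ S, ω w = dbl (η w) := by
    intro w hw
    by_cases ha : T.a ∈ locPow 2 w
    · obtain ⟨P, rfl⟩ := exists_below_eq E w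
      obtain ⟨Q, rfl⟩ := exists_below_eq M P
      have hc := T.conj_c_ne hw ha
      have hQ : Q.under (𝓞 F) ∉ S := by rwa [← under_under (E := E)]
      have h4 : ω ((Q.under (𝓞 E)).under (𝓞 F)) = 0 ∨ ω ((Q.under (𝓞 E)).under (𝓞 F)) = 2 := by
        rw [hωB _ hw hc]
        by_cases hσ : conj T.σ Q = Q
        · exact hB2 Q hQ hσ
        · exact Or.inl (hB1 Q hQ hσ)
      simp only [η]
      rcases h4 with h4 | h4 <;> rw [h4] <;> decide
    · have h4 := hωA w hw ha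
      simp only [η]
      rw [h4, if_pos rfl, map_zero]
  have hη : IsRay S (max n n₀) η := TrivStmt.of_IsRay_dbl (hω.congr hηω)
  have hη0 := hT _ η hη (by
    intro w hw hab
    have h4 : ω w = 0 := by
      by_cases ha : T.a ∈ locPow 2 w
      · have hb : T.b ∈ locPow 2 w := by
          by_contra hb
          exact hab ⟨ha, hb⟩
        obtain ⟨P, rfl⟩ := exists_below_eq E w
        obtain ⟨Q, rfl⟩ := exists_below_eq M P
        have hc := T.conj_c_ne hw ha
        have hQ : Q.under (𝓞 F) ∉ S := by rwa [← under_under (E := E)]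
        rw [hωB _ hw hc]
        refine hB1 Q hQ (T.conj_σ_ne_of_b hQ ?_)
        rwa [← under_under (E := E)]
      · exact hωA w hw ha
    simp only [η]
    rw [if_pos h4])
  refine ⟨n, ψ, hψ, h1, h3, hinert, ?_⟩
  intro P hP hc
  rw [← hωB P hP hc, hηω _ hP, hη0 _ hP, map_zero]

end TowerData

end Fermat.Agent.LT.Psi
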