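import Fermat.Agent.LT.Psi.Trace
import Fermat.Agent.LT.NonVan

/-!
# From a quaternion extension to `TowerData`

`F ⊂ E ⊂ M ⊂ M'` with quadratic steps, `M' / F` Galois with quaternion group.
-/

set_option autoImplicit false
set_option linter.unusedSectionVars false

namespace Fermat.Agent.LT.Psi

open IsDedekindDomain NumberField WithZero
open Fermat.Agent.CFT.SUnits (ord ord_one ord_mul ord_inv ord_pow ord_div ord_eq_zero_iff
  valuation_eq_exp_neg_ord finite_ord_ne_zero div div_apply exists_clTrivial)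
open Fermat.Agent.CFT.Places
open Fermat.Agent.CFT.Global hiding Inputs p_dvd_index exists_notMem_locPow exists_place powE mem_powE index_powE index_zpowers_sup_powE second hasse_norm FirstInequality exists_eq_nsmul_add exists_ne_symVec
open Fermat.Agent.CFT.Global2

/-- The part of `TowerData` which does not depend on the set of bad places. -/
structure TowerCore (F E M : Type) [Field F] [NumberField F] [Field E] [NumberField E] [Field M]
    [NumberField M] [Algebra F E] [Algebra E M] [Algebra F M] [IsScalarTower F E M] where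
  /-- the generator of `Gal(M/E)` -/
  σ : M ≃ₐ[E] M
  /-- an element of `Gal(M/F)` not in `Gal(M/E)` -/
  τ : M ≃ₐ[F] M
  /-- the generator of `Gal(E/F)` -/
  c : E ≃ₐ[F] E
  /-- `E = F(√a)` -/
  a : Fˣ
  /-- `M = E(√b)` -/
  b : Fˣ
  /-- `√a` -/
  α : E
  /-- `√b` -/
  β : M
  /-- the quaternion extension is `M(√d)` -/
  d : Mˣ
  finrank_FE : Module.finrank F E = 2
  finrank_EM : Module.finrank E M = 2
  galois_FE : IsGalois F E
  galois_EM : IsGalois E M
  sq_α : α ^ 2 = algebraMap F E a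
  sq_β : β ^ 2 = algebraMap F M b
  c_α : c α = -α
  σ_β : σ β = -β
  τ_β : τ β = β
  τ_α : ∀ x : E, τ (algebraMap E M x) = algebraMap E M (c x)
  τ_τ : ∀ x, τ (τ x) = x
  σ_τ : ∀ x, σ (τ x) = τ (σ x)
  quat_σ : QuatCond (σ.restrictScalars F) d
  quat_τ : QuatCond τ d
  quat_στ : QuatCond (σ.restrictScalars F * τ) d

section ToData

variable {F E M : Type} [Field F] [NumberField F] [Field E] [NumberField E] [Field M]
  [NumberField M] [Algebra F E] [Algebra E M] [Algebra F M] [IsScalarTower F E M]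

namespace TowerCore

variable (C : TowerCore F E M)

lemma α_ne_zero : C.α ≠ 0 := by
  intro h
  have h1 := C.sq_α
  rw [h, zero_pow two_ne_zero] at h1
  exact (map_ne_zero (algebraMap F E)).mpr C.a.ne_zero h1.symm

lemma β_ne_zero : C.β ≠ 0 := by
  intro h
  have h1 := C.sq_β
  rw [h, zero_pow two_ne_zero] at h1
  exact (map_ne_zero (algebraMap F M)).mpr C.b.ne_zero h1.symm

lemma c_ne_one : C.c ≠ 1 := by
  intro h
  have h1 := C.c_α
  rw [h, AlgEquiv.one_apply, self_eq_neg] at h1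
  exact C.α_ne_zero h1

lemma σ_ne_one : C.σ ≠ 1 := by
  intro h
  have h1 := C.σ_β
  rw [h, AlgEquiv.one_apply, self_eq_neg] at h1
  exact C.β_ne_zero h1

/-- The tower data from the core and a set of bad places. -/
def toData {S : Finset (HeightOneSpectrum (𝓞 F))} (two_mem : AboveP 2 S)
    (ord_a : ∀ v ∉ S, ord v C.a = 0) (ord_b : ∀ v ∉ S, ord v C.b = 0)
    (ord_d : ∀ w ∉ above M S, ord w C.d = 0) (cl_E : ClTrivial (above E S))
    (cl_M : ClTrivial (above M S)) : TowerData F E M S where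
  σ := C.σ
  τ := C.τ
  c := C.c
  a := C.a
  b := C.b
  α := C.α
  β := C.β
  d := C.d
  finrank_FE := C.finrank_FE
  finrank_EM := C.finrank_EM
  galois_FE := C.galois_FE
  galois_EM := C.galois_EM
  sq_α := C.sq_α
  sq_β := C.sq_β
  c_α := C.c_α
  σ_β := C.σ_β
  τ_α := C.τ_α
  τ_τ := C.τ_τ
  σ_τ := C.σ_τ
  two_mem := two_mem
  ord_a := ord_a
  ord_b := ord_b
  ord_d := ord_d
  cl_E := cl_E
  cl_M := cl_M
  unr_FE := by
    intro P hP
    have := C.galois_FE
    refine NV.ramificationIdx'_eq_one C.finrank_FE C.c_ne_one C.sq_α C.c_α ?_ ?_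
    · intro h
      apply hP
      apply two_mem
      change algebraMap (𝓞 F) (𝓞 E) ((2 : ℕ) : 𝓞 F) ∈ P.asIdeal
      rw [map_natCast]
      exact h
    · rw [ord_a _ hP]
      exact dvd_zero _
  unr_EM := by
    intro Q hQ
    have := C.galois_EM
    have hβ : C.β ^ 2 = algebraMap E M (up E C.b : Eˣ) := by
      rw [C.sq_β, coe_up, ← IsScalarTower.algebraMap_apply]
    refine NV.ramificationIdx'_eq_one C.finrank_EM C.σ_ne_one hβ C.σ_β ?_ ?_
    · intro h
      apply hQ
      apply two_mem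
      change algebraMap (𝓞 F) (𝓞 M) ((2 : ℕ) : 𝓞 F) ∈ Q.asIdeal
      rw [map_natCast]
      exact h
    · rw [ord_up, under_under, ord_b _ hQ, mul_zero]
      exact dvd_zero _
  quat_σ := C.quat_σ
  quat_τ := C.quat_τ
  quat_στ := C.quat_στ

end TowerCore

/-- a finite set of places divides a nonzero integer -/
lemma exists_natCast_mem {K : Type*} [Field K] [NumberField K]
    (T : Finset (HeightOneSpectrum (𝓞 K))) :
    ∃ n : ℕ, n ≠ 0 ∧ ∀ v ∈ T, (n : 𝓞 K) ∈ v.asIdeal := by
  classical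
  refine ⟨∏ v ∈ T, Ideal.absNorm v.asIdeal, ?_, ?_⟩
  · rw [Finset.prod_ne_zero_iff]
    intro v _
    rw [Ne, Ideal.absNorm_eq_zero_iff]
    exact v.ne_bot
  · intro v hv
    rw [← Finset.mul_prod_erase T _ hv, Nat.cast_mul]
    exact Ideal.mul_mem_right _ _ (Ideal.absNorm_mem _)

theorem TowerCore.exists_N (C : TowerCore F E M) (N₀ : ℕ) (hN₀ : N₀ ≠ 0) :
    ∃ N : ℕ, N ≠ 0 ∧ N₀ ∣ N ∧ 2 ∣ N ∧ ∀ N' : ℕ, N ∣ N' →
      ∀ S : Finset (HeightOneSpectrum (𝓞 F)),
      (∀ v : HeightOneSpectrum (𝓞 F), v ∈ S ↔ (N' : 𝓞 F) ∈ v.asIdeal) →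
      AboveP 2 S ∧ (∀ v ∉ S, ord v C.a = 0) ∧ (∀ v ∉ S, ord v C.b = 0) ∧
      (∀ w ∉ above M S, ord w C.d = 0) ∧ ClTrivial (above E S) ∧ ClTrivial (above M S) := by
  classical
  obtain ⟨na, hna, ha⟩ := exists_natCast_mem (finite_ord_ne_zero F C.a (R := 𝓞 F)).toFinset
  obtain ⟨nb, hnb, hb⟩ := exists_natCast_mem (finite_ord_ne_zero F C.b (R := 𝓞 F)).toFinset
  obtain ⟨nd, hnd, hd⟩ := exists_natCast_mem (finite_ord_ne_zero M C.d (R := 𝓞 M)).toFinset
  obtain ⟨TE, -, hTE⟩ := exists_clTrivial (K := E) ∅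
  obtain ⟨TM, -, hTM⟩ := exists_clTrivial (K := M) ∅
  obtain ⟨nE, hnE, hE⟩ := exists_natCast_mem TE
  obtain ⟨nM, hnM, hM⟩ := exists_natCast_mem TM
  refine ⟨2 * N₀ * na * nb * nd * nE * nM, by positivity,
    ⟨2 * na * nb * nd * nE * nM, by ring⟩, ⟨N₀ * na * nb * nd * nE * nM, by ring⟩, ?_⟩
  intro N' hN' S hS
  have key : ∀ {K : Type} [Field K] [NumberField K] (v : HeightOneSpectrum (𝓞 K)) (m : ℕ),
      m ∣ N' → (m : 𝓞 K) ∈ v.asIdeal → (N' : 𝓞 K) ∈ v.asIdeal := by
    intro K _ _ v m hm h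
    obtain ⟨k, rfl⟩ := hm
    rw [Nat.cast_mul]
    exact Ideal.mul_mem_right _ _ h
  have memabove : ∀ {K : Type} [Field K] [NumberField K] [Algebra F K]
      (w : HeightOneSpectrum (𝓞 K)), (N' : 𝓞 K) ∈ w.asIdeal → w ∈ above K S := by
    intro K _ _ _ w h
    rw [mem_above, hS]
    change algebraMap (𝓞 F) (𝓞 K) ((N' : ℕ) : 𝓞 F) ∈ w.asIdeal
    rwa [map_natCast]
  have d2 : 2 ∣ N' := Dvd.dvd.trans (Dvd.intro (N₀ * na * nb * nd * nE * nM) (by ring)) hN'
  have da : na ∣ N' := Dvd.dvd.trans (Dvd.intro (2 * N₀ * nb * nd * nE * nM) (by ring)) hN'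
  have db : nb ∣ N' := Dvd.dvd.trans (Dvd.intro (2 * N₀ * na * nd * nE * nM) (by ring)) hN'
  have dd : nd ∣ N' := Dvd.dvd.trans (Dvd.intro (2 * N₀ * na * nb * nE * nM) (by ring)) hN'
  have dE : nE ∣ N' := Dvd.dvd.trans (Dvd.intro (2 * N₀ * na * nb * nd * nM) (by ring)) hN'
  have dM : nM ∣ N' := Dvd.dvd.trans (Dvd.intro (2 * N₀ * na * nb * nd * nE) (by ring)) hN'
  refine ⟨?_, ?_, ?_, ?_, ?_, ?_⟩
  · intro v hv
    rw [hS]
    exact key v 2 d2 hv
  · intro v hv
    by_contra h
    exact hv ((hS v).mpr (key v na da (ha v (by simpa using h))))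
  · intro v hv
    by_contra h
    exact hv ((hS v).mpr (key v nb db (hb v (by simpa using h))))
  · intro w hw
    by_contra h
    exact hw (memabove w (key w nd dd (hd w (by simpa using h))))
  · refine ClTrivial.mono (S := TE) (fun D => hTE.exists_ord D) fun w hw => ?_
    exact memabove w (key w nE dE (hE w hw))
  · refine ClTrivial.mono (S := TM) (fun D => hTM.exists_ord D) fun w hw => ?_
    exact memabove w (key w nM dM (hM w hw))

end ToData

/-! ### Field theory -/

section Field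

variable {F E M M' : Type} [Field F] [NumberField F] [Field E] [NumberField E] [Field M]
  [NumberField M] [Field M'] [NumberField M'] [Algebra F E] [Algebra E M] [Algebra F M]
  [IsScalarTower F E M] [Algebra M M'] [Algebra F M'] [Algebra E M'] [IsScalarTower F M M']
  [IsScalarTower E M M'] [IsScalarTower F E M'] [IsGalois F M']
  (h2 : Module.finrank M M' = 2) {z : M' ≃ₐ[M] M'} (hz : z ≠ 1)
  (hQ : ∀ g : M' ≃ₐ[F] M', g = 1 ∨ g = z.restrictScalars F ∨ g * g = z.restrictScalars F)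

include hQ in
lemma z_comm (g : M' ≃ₐ[F] M') (x : M') : z (g x) = g (z x) := by
  rcases hQ g with h | h | h
  · rw [h]; rfl
  · rw [h]; rfl
  · have h1 : ∀ y, z y = g (g y) := fun y => (DFunLike.congr_fun h y).symm
    rw [h1, h1]

include h2 hz hQ in
lemma exists_map_eq (g : M' ≃ₐ[F] M') (x : M) : ∃ y : M, algebraMap M M' y = g (algebraMap M M' x) := by
  have : IsGalois M M' := IsGalois.tower_top_of_isGalois F M M'
  refine Unr.mem_range_of_fixed h2 hz ?_
  rw [z_comm hQ, AlgEquiv.commutes]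

include h2 hz hQ in
lemma normal_M : Normal F M := by
  let φ : M →ₐ[F] M' := IsScalarTower.toAlgHom F M M'
  have h1 : Normal F φ.fieldRange := by
    rw [IntermediateField.normal_iff_forall_map_le']
    rintro g _ ⟨_, ⟨x, rfl⟩, rfl⟩
    obtain ⟨y, hy⟩ := exists_map_eq h2 hz hQ g x
    exact ⟨y, hy⟩
  exact Normal.of_algEquiv φ.equivFieldRange.symm

include h2 hz hQ in
/-- the quaternion condition from a lift of order four -/
lemma quatCond_of_lift {g : M ≃ₐ[F] M} {g' : M' ≃ₐ[F] M'}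
    (hg : ∀ x, g' (algebraMap M M' x) = algebraMap M M' (g x))
    (hgg : g' * g' = z.restrictScalars F) {δ : M'} (hδ0 : δ ≠ 0) (hδ : z δ = -δ) {d : Mˣ}
    (hd : δ ^ 2 = algebraMap M M' d) : QuatCond g d := by
  have : IsGalois M M' := IsGalois.tower_top_of_isGalois F M M'
  have hzz : ∀ y, g' (g' y) = z y := fun y => DFunLike.congr_fun hgg y
  obtain ⟨e, he⟩ := Unr.mem_range_of_fixed h2 hz (x := δ * g' δ) (by
    rw [map_mul, z_comm hQ, hδ, map_neg, neg_mul_neg])
  have he0 : e ≠ 0 := by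
    rintro rfl
    rw [map_zero] at he
    exact mul_ne_zero hδ0 ((map_ne_zero g').mpr hδ0) he.symm
  have hinj := (algebraMap M M').injective
  refine ⟨Units.mk0 e he0, ?_, ?_⟩
  · ext
    apply hinj
    rw [Units.val_mul, coe_galU, map_mul, ← hg, ← hd, Units.val_pow_eq_pow_val, Units.val_mk0,
      map_pow, map_pow, he, mul_pow]
  · apply hinj
    rw [Units.val_mk0, ← hg, he, map_mul, hzz, hδ, map_neg, he]
    ring

include h2 hz hQ in
/-- **A quaternion extension gives a tower.** -/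
theorem exists_core (hFE : Module.finrank F E = 2) (hEM : Module.finrank E M = 2) :
    ∃ (C : TowerCore F E M) (δ : M'), δ ^ 2 = algebraMap M M' C.d ∧ z δ = -δ := by
  have hGM' : IsGalois M M' := IsGalois.tower_top_of_isGalois F M M'
  have hqFE : Algebra.IsQuadraticExtension F E := ⟨hFE⟩
  have hqEM : Algebra.IsQuadraticExtension E M := ⟨hEM⟩
  have hGFE : IsGalois F E := inferInstance
  have hGEM : IsGalois E M := inferInstance
  have hNM : Normal F M := normal_M h2 hz hQ
  -- `c`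
  have hcard : Nat.card Gal(E/F) = 2 := by rw [IsGalois.card_aut_eq_finrank, hFE]
  have hnt : Nontrivial Gal(E/F) := by
    by_contra h
    rw [not_nontrivial_iff_subsingleton] at h
    have := Nat.card_of_subsingleton (1 : Gal(E/F))
    omega
  obtain ⟨c, hc⟩ := exists_ne (1 : Gal(E/F))
  have hcard' : Nat.card Gal(M/E) = 2 := by rw [IsGalois.card_aut_eq_finrank, hEM]
  have hnt' : Nontrivial Gal(M/E) := by
    by_contra h
    rw [not_nontrivial_iff_subsingleton] at h
    have := Nat.card_of_subsingleton (1 : Gal(M/E))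
    omega
  obtain ⟨σ, hσ⟩ := exists_ne (1 : Gal(M/E))
  obtain ⟨α, a, hα, hcα, hna, -⟩ := Unr.exists_gen_quad hFE hc
  obtain ⟨β₀, b₀, hβ₀, hσβ₀, hnb₀, -⟩ := Unr.exists_gen_quad hEM hσ
  obtain ⟨δ, d, hδ, hzδ, hnd, -⟩ := Unr.exists_gen_quad h2 hz
  have hδ0 : δ ≠ 0 := by
    rintro rfl
    rw [zero_pow two_ne_zero] at hδ
    exact (map_ne_zero (algebraMap M M')).mpr d.ne_zero hδ.symm
  have hα0 : α ≠ 0 := by
    rintro rfl
    rw [zero_pow two_ne_zero] at hα
    exact (map_ne_zero (algebraMap F E)).mpr a.ne_zero hα.symm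
  have hβ₀0 : β₀ ≠ 0 := by
    rintro rfl
    rw [zero_pow two_ne_zero] at hβ₀
    exact (map_ne_zero (algebraMap E M)).mpr b₀.ne_zero hβ₀.symm
  -- lifts
  obtain ⟨j, hj⟩ := AlgEquiv.restrictNormalHom_surjective (F := F) (K₁ := E) M' c
  obtain ⟨i, hi⟩ := AlgEquiv.restrictNormalHom_surjective (F := F) (K₁ := M) M'
    (σ.restrictScalars F)
  have hjE : ∀ x : E, j (algebraMap E M' x) = algebraMap E M' (c x) := by
    intro x
    rw [← hj]
    exact (AlgEquiv.restrictNormal_commutes j E x).symm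
  have hiM : ∀ x : M, i (algebraMap M M' x) = algebraMap M M' (σ x) := by
    intro x
    have h := (AlgEquiv.restrictNormal_commutes i M x).symm
    have h' : i.restrictNormal M x = σ x := DFunLike.congr_fun hi x
    rwa [h'] at h
  let τ : M ≃ₐ[F] M := j.restrictNormal M
  have hjM : ∀ x : M, j (algebraMap M M' x) = algebraMap M M' (τ x) := fun x =>
    (AlgEquiv.restrictNormal_commutes j M x).symm
  have hinj := (algebraMap M M').injective
  have hτE : ∀ x : E, τ (algebraMap E M x) = algebraMap E M (c x) := by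
    intro x
    apply hinj
    rw [← hjM, ← IsScalarTower.algebraMap_apply, hjE, IsScalarTower.algebraMap_apply E M M']
  -- elements acting nontrivially on `M` have square `z`
  have hsq : ∀ (g' : M' ≃ₐ[F] M') (x : M), g' (algebraMap M M' x) ≠ algebraMap M M' x →
      g' * g' = z.restrictScalars F := by
    intro g' x hx
    rcases hQ g' with h | h | h
    · exact absurd (by rw [h]; rfl) hx
    · exact absurd (by rw [h]; exact z.commutes x) hx
    · exact h
  have hsq1 : ∀ (g' : M' ≃ₐ[F] M') (x : M), g' (g' (algebraMap M M' x)) = algebraMap M M' x := by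
    intro g' x
    by_cases h : g' (algebraMap M M' x) = algebraMap M M' x
    · rw [h, h]
    · have h1 := hsq g' x h
      have h3 : g' (g' (algebraMap M M' x)) = z (algebraMap M M' x) :=
        DFunLike.congr_fun h1 _
      rw [h3, z.commutes]
  have hττ : ∀ x, τ (τ x) = x := by
    intro x
    apply hinj
    rw [← hjM, ← hjM]
    exact hsq1 j x
  have hσσ : ∀ x, σ (σ x) = x := Unr.apply_apply hEM hσ
  have hστστ : ∀ x, σ (τ (σ (τ x))) = x := by
    intro x
    apply hinj
    rw [← hiM, ← hjM, ← hiM, ← hjM]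
    exact hsq1 (i * j) x
  have hστ : ∀ x, σ (τ x) = τ (σ x) := by
    intro x
    have h1 := hστστ (τ (σ x))
    rwa [hττ, hσσ] at h1
  -- quaternion conditions
  have hca : c α ≠ α := by
    rw [hcα]
    intro h
    exact hα0 (neg_eq_self.mp h)
  have hjj : j * j = z.restrictScalars F := hsq j (algebraMap E M α) (by
    rw [hjM, hτE]
    intro h
    exact hca ((algebraMap E M).injective (hinj h)))
  have hii : i * i = z.restrictScalars F := hsq i β₀ (by
    rw [hiM, hσβ₀]
    intro h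
    exact hβ₀0 (neg_eq_self.mp (hinj h)))
  have hij : (i * j) * (i * j) = z.restrictScalars F := hsq (i * j) (algebraMap E M α) (by
    change i (j _) ≠ _
    rw [hjM, hτE, hiM, AlgEquiv.commutes]
    intro h
    exact hca ((algebraMap E M).injective (hinj h)))
  -- `β`
  obtain ⟨β, hβ0, hσβ, hτβ⟩ : ∃ β : M, β ≠ 0 ∧ σ β = -β ∧ τ β = β := by
    by_cases h : β₀ + τ β₀ = 0
    · refine ⟨algebraMap E M α * β₀, mul_ne_zero ((map_ne_zero _).mpr hα0) hβ₀0, ?_, ?_⟩
      · rw [map_mul, AlgEquiv.commutes, hσβ₀, mul_neg]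
      · have h1 : τ β₀ = -β₀ := by linear_combination h
        rw [map_mul, hτE, hcα, h1, map_neg, neg_mul_neg]
    · refine ⟨β₀ + τ β₀, h, ?_, ?_⟩
      · rw [map_add, hστ, hσβ₀, map_neg, neg_add]
      · rw [map_add, hττ, add_comm]
  obtain ⟨y, hy⟩ := Unr.mem_range_of_fixed hEM hσ (x := β ^ 2) (by rw [map_pow, hσβ, neg_sq])
  obtain ⟨b, hb⟩ := Unr.mem_range_of_fixed hFE hc (x := y) (by
    apply (algebraMap E M).injective
    rw [← hτE, hy, map_pow, hτβ])
  have hb0 : b ≠ 0 := by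
    rintro rfl
    rw [map_zero] at hb
    rw [← hb, map_zero] at hy
    exact pow_ne_zero 2 hβ0 hy.symm
  refine ⟨{
    σ := σ
    τ := τ
    c := c
    a := a
    b := Units.mk0 b hb0
    α := α
    β := β
    d := d
    finrank_FE := hFE
    finrank_EM := hEM
    galois_FE := hGFE
    galois_EM := hGEM
    sq_α := hα
    sq_β := by rw [Units.val_mk0, IsScalarTower.algebraMap_apply F E M, hb, hy]
    c_α := hcα
    σ_β := hσβ
    τ_β := hτβ
    τ_α := hτE
    τ_τ := hττ
    σ_τ := hστ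
    quat_σ := quatCond_of_lift h2 hz hQ (g' := i) hiM hii hδ0 hzδ hδ
    quat_τ := quatCond_of_lift h2 hz hQ (g' := j) hjM hjj hδ0 hzδ hδ
    quat_στ := quatCond_of_lift h2 hz hQ (g' := i * j) (fun x => by
      change i (j _) = _
      rw [hjM, hiM]
      rfl) hij hδ0 hzδ hδ }, δ, hδ, hzδ⟩

end Field

end Fermat.Agent.LT.Psi
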