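import Fermat.Agent.LT.Psi.Exist

/-!
# Semi-local Hilbert 90 for quadratic extensions
-/

set_option autoImplicit false
set_option linter.unusedSectionVars false

namespace Fermat.Agent.LT.Psi

open IsDedekindDomain NumberField WithZero
open Fermat.Agent.CFT.SUnits (ord ord_one ord_mul ord_inv ord_pow ord_div ord_eq_zero_iff
  valuation_eq_exp_neg_ord finite_ord_ne_zero div div_apply)
open Fermat.Agent.CFT.Places
open Fermat.Agent.CFT.Global hiding Inputs p_dvd_index exists_notMem_locPow exists_place powE mem_powE index_powE index_zpowers_sup_powE second hasse_norm FirstInequality exists_eq_nsmul_add exists_ne_symVec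
open Fermat.Agent.CFT.Global2

variable {K L : Type*} [Field K] [NumberField K] [Field L] [NumberField L] [Algebra K L]
  [IsGalois K L] (h2 : Module.finrank K L = 2) {σ : L ≃ₐ[K] L} (hσ : σ ≠ 1)

lemma valuation_eq_one_of_mem_cong {F : Type*} [Field F] [NumberField F]
    {w : HeightOneSpectrum (𝓞 F)} {n : ℕ} {u : Fˣ} (hu : u ∈ cong w n) :
    w.valuation F (u : F) = 1 :=
  (ord_eq_zero_iff F w u).mp (ord_eq_zero_of_mem_cong hu)

include hσ in
lemma exists_int_moved : ∃ α : 𝓞 L, σ (α : L) ≠ α := by
  by_contra! h
  apply hσ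
  ext x
  obtain ⟨a, b, hb, rfl⟩ := IsFractionRing.div_surjective (A := 𝓞 L) x
  rw [map_div₀]
  change σ (a : L) / σ (b : L) = _
  rw [h a, h b]
  rfl

omit [IsGalois K L] in
lemma exists_unif (S : Finset (HeightOneSpectrum (𝓞 K))) :
    ∃ q : Kˣ, ∀ v ∈ S, v.valuation K (q : K) < 1 := by
  classical
  have h0 : (∏ v ∈ S, v.asIdeal) ≠ ⊥ := by
    rw [← Ideal.zero_eq_bot, Finset.prod_ne_zero_iff]
    intro v _
    rw [Ideal.zero_eq_bot]
    exact v.ne_bot
  obtain ⟨q, hq, hq0⟩ := Submodule.exists_mem_ne_zero_of_ne_bot h0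
  have hq0' : (q : K) ≠ 0 := by
    intro h
    exact hq0 (RingOfIntegers.ext h)
  refine ⟨Units.mk0 _ hq0', fun v hv => ?_⟩
  rw [Units.val_mk0]
  change v.valuation K (algebraMap (𝓞 K) K q) < 1
  rw [HeightOneSpectrum.valuation_lt_one_iff_mem]
  exact (Ideal.prod_le_inf.trans (Finset.inf_le hv)) hq

include h2 hσ in
/-- **Semi-local Hilbert 90.** -/
theorem semiLoc90 (S : Finset (HeightOneSpectrum (𝓞 K))) : SemiLoc90 σ S := by
  classical
  intro n
  obtain ⟨α, hα⟩ := exists_int_moved hσ
  have hD0 : (α : L) - σ α ≠ 0 := sub_ne_zero.mpr (Ne.symm hα)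
  have hα0 : (α : L) ≠ 0 := by
    intro h
    apply hα
    rw [h, map_zero]
  set DU : Lˣ := Units.mk0 _ hD0 with hDU
  set d : ℕ := (above L S).sup (fun w => (ord w DU).toNat) with hd
  have hα1 : ∀ w : HeightOneSpectrum (𝓞 L), w.valuation L (α : L) ≤ 1 := fun w =>
    HeightOneSpectrum.valuation_le_one w α
  have hD : ∀ w ∈ above L S, exp (-(d : ℤ)) ≤ w.valuation L ((α : L) - σ α) := by
    intro w hw
    have h1 : w.valuation L ((α : L) - σ α) = exp (- ord w DU) := valuation_eq_exp_neg_ord L w DU
    rw [h1, exp_le_exp]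
    have h3 : (ord w DU).toNat ≤ d := by
      rw [hd]
      exact Finset.le_sup (f := fun w => (ord w DU).toNat) hw
    have := Int.self_le_toNat (ord w DU)
    omega
  refine ⟨n + d, fun z hz => ?_⟩
  obtain ⟨q, hq⟩ := exists_unif S
  set δ : K := Algebra.norm K (z : L) - 1 with hδdef
  have hδ : ∀ w ∈ above L S, w.valuation L (algebraMap K L δ) ≤ exp (-((n + d : ℕ) + 1 : ℤ)) := by
    intro w hw
    have h1 := hz _ ((mem_above L).mp hw)
    rw [mem_cong] at h1
    have h1' : (w.under (𝓞 K)).valuation K δ ≤ exp (-((n + d : ℕ) + 1 : ℤ)) := h1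
    rw [valuation_algebraMap]
    have h3 : (w.under (𝓞 K)).valuation K δ ≤ 1 := h1'.trans (by
      rw [← exp_zero, exp_le_exp]
      omega)
    exact (pow_le_of_le_one zero_le h3 (ramificationIdx'_ne_zero w)).trans h1'
  have hzz : (z : L) * σ z = 1 + algebraMap K L δ := by
    rw [hδdef, map_sub, map_one, Unr.norm_eq_mul h2 hσ]
    ring
  have hord : ∀ w ∈ above L S, ord w z + ord (conj σ w) z = 0 := by
    intro w hw
    rw [← ord_up_normU h2 hσ, ord_up,
      ord_eq_zero_of_mem_cong (hz _ ((mem_above L).mp hw)), mul_zero]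
  let rep : HeightOneSpectrum (𝓞 K) → HeightOneSpectrum (𝓞 L) := fun v =>
    Classical.choose (exists_below_eq L v)
  have hrep : ∀ v, (rep v).under (𝓞 K) = v := fun v => Classical.choose_spec (exists_below_eq L v)
  let f : HeightOneSpectrum (𝓞 L) → Lˣ := fun w =>
    if conj σ w = w then (if exp (-(d : ℤ)) ≤ w.valuation L (1 + (z : L)) then 1
      else Units.mk0 _ hα0)
    else if w = rep (w.under (𝓞 K)) then 1 else z * up L q
  obtain ⟨c, hc⟩ := indep_cong (above L S) d f
  set t : L := c + z * σ c with ht
  -- the key estimate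
  have key : ∀ w ∈ above L S, w.valuation L (c : L) * exp (-(d : ℤ)) ≤ w.valuation L t := by
    intro w hw
    have hw' : conj σ w ∈ above L S := (conj_mem_above σ S w).mpr hw
    have hu₁ := hc w hw
    have hu₂ : galU σ (c / f (conj σ w)) ∈ cong w d := by
      have h1 := (mem_cong_conj σ (conj σ w) d (c / f (conj σ w))).mpr (hc _ hw')
      rwa [conj_conj h2 hσ] at h1
    have hexp1 : exp (-(d : ℤ)) ≤ (1 : ℤᵐ⁰) := by
      rw [← exp_zero, exp_le_exp]
      omega
    have hlt : exp (-((d : ℤ) + 1)) < exp (-(d : ℤ)) := by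
      rw [exp_lt_exp]
      omega
    have hlt1 : exp (-((d : ℤ) + 1)) < (1 : ℤᵐ⁰) := hlt.trans_le hexp1
    have hc₁ : (c : L) = (f w : L) * ((c / f w : Lˣ) : L) := by
      rw [← Units.val_mul, mul_div_cancel]
    have hc₂ : σ (c : L) = σ (f (conj σ w) : L) * ((galU σ (c / f (conj σ w)) : Lˣ) : L) := by
      rw [coe_galU, ← map_mul, ← Units.val_mul, mul_div_cancel]
    set u₁ : L := ((c / f w : Lˣ) : L) with hu₁def
    set u₂ : L := ((galU σ (c / f (conj σ w)) : Lˣ) : L) with hu₂def
    have hu₁v : w.valuation L u₁ = 1 := valuation_eq_one_of_mem_cong hu₁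
    have hu₂v : w.valuation L u₂ = 1 := valuation_eq_one_of_mem_cong hu₂
    rw [mem_cong] at hu₁ hu₂
    have hqw : w.valuation L (algebraMap K L q) < 1 := by
      rw [valuation_algebraMap_lt_one_iff]
      exact hq _ ((mem_above L).mp hw)
    have h1δ : w.valuation L (1 + algebraMap K L δ) = 1 := by
      rw [Valuation.map_add_eq_of_lt_left _, map_one]
      rw [map_one]
      refine (hδ w hw).trans_lt ?_
      rw [← exp_zero, exp_lt_exp]
      omega
    by_cases hσw : conj σ w = w
    · -- non-split place
      have hzw : w.valuation L (z : L) = 1 := by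
        have h := hord w hw
        rw [hσw] at h
        rw [← ord_eq_zero_iff]
        omega
      rw [hσw] at hc₂
      have hfw : w.valuation L (f w : L) ≤ 1 ∧
          exp (-(d : ℤ)) ≤ w.valuation L ((f w : L) + z * σ (f w : L)) := by
        simp only [f, if_pos hσw]
        split_ifs with h
        · refine ⟨by simp, ?_⟩
          rw [Units.val_one, map_one, mul_one]
          exact h
        · rw [Units.val_mk0]
          refine ⟨hα1 w, ?_⟩
          have e : (α : L) + z * σ α = ((α : L) - σ α) + σ α * (1 + z) := by ring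
          rw [e, Valuation.map_add_eq_of_lt_left]
          · exact hD w hw
          · refine lt_of_lt_of_le ?_ (hD w hw)
            rw [map_mul]
            refine lt_of_le_of_lt ?_ (not_le.mp h)
            apply mul_le_of_le_one_left'
            rw [valuation_apply_of_conj_eq σ w hσw]
            exact hα1 w
      have hfσ : w.valuation L (σ (f w : L)) ≤ 1 := by
        rw [valuation_apply_of_conj_eq σ w hσw]
        exact hfw.1
      have hcv : w.valuation L (c : L) ≤ 1 := by
        rw [hc₁, map_mul, hu₁v, mul_one]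
        exact hfw.1
      have e2 : t = ((f w : L) + z * σ (f w : L)) +
          ((f w : L) * (u₁ - 1) + z * σ (f w : L) * (u₂ - 1)) := by
        rw [ht, hc₁, map_mul]
        have e3 : σ (f w : L) * σ u₁ = σ (c : L) := by
          conv_rhs => rw [hc₁, map_mul]
        rw [e3, hc₂]
        ring
      have hsmall : w.valuation L ((f w : L) * (u₁ - 1) + z * σ (f w : L) * (u₂ - 1)) <
          exp (-(d : ℤ)) := by
        refine lt_of_le_of_lt ?_ hlt
        refine (Valuation.map_add _ _ _).trans (max_le ?_ ?_)
        · rw [map_mul]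
          exact (mul_le_of_le_one_left' hfw.1).trans hu₁
        · rw [map_mul, map_mul, hzw, one_mul]
          exact (mul_le_of_le_one_left' hfσ).trans hu₂
      have hres : exp (-(d : ℤ)) ≤ w.valuation L t := by
        rw [e2, Valuation.map_add_eq_of_lt_left _ (hsmall.trans_le hfw.2)]
        exact hfw.2
      exact (mul_le_of_le_one_left' hcv).trans hres
    · have hσσ : conj σ (conj σ w) = w := conj_conj h2 hσ w
      have hσw' : ¬ conj σ (conj σ w) = conj σ w := by
        rw [hσσ]
        exact fun h => hσw h.symm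
      by_cases hr : w = rep (w.under (𝓞 K))
      · -- the chosen place
        have hfw : f w = 1 := by
          simp only [f, if_neg hσw]
          rw [if_pos hr]
        have hfw' : f (conj σ w) = z * up L q := by
          simp only [f, if_neg hσw']
          rw [if_neg]
          rw [below_conj, ← hr]
          exact hσw
        have ht' : t = u₁ + (1 + algebraMap K L δ) * algebraMap K L q * u₂ := by
          have e3 : (c : L) = u₁ := by rw [hc₁, hfw, Units.val_one, one_mul]
          rw [ht, hc₂, hfw', e3, Units.val_mul, map_mul, coe_up, AlgEquiv.commutes, ← hzz]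
          ring
        have h4 : w.valuation L ((1 + algebraMap K L δ) * algebraMap K L q * u₂) < 1 := by
          rw [map_mul, map_mul, h1δ, hu₂v, one_mul, mul_one]
          exact hqw
        have htv : w.valuation L t = 1 := by
          rw [ht', Valuation.map_add_eq_of_lt_left _ (by rwa [hu₁v]), hu₁v]
        have hcv : w.valuation L (c : L) = 1 := by
          rw [hc₁, hfw, Units.val_one, one_mul, hu₁v]
        rw [htv, hcv, one_mul]
        exact hexp1
      · -- the other place
        have hr' : conj σ w = rep ((conj σ w).under (𝓞 K)) := by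
          rw [below_conj]
          rcases eq_or_eq_conj h2 hσ (w := w) (w' := rep (w.under (𝓞 K))) (hrep _) with h | h
          · exact absurd h.symm hr
          · exact h.symm
        have hfw : f w = z * up L q := by
          simp only [f, if_neg hσw]
          rw [if_neg hr]
        have hfw' : f (conj σ w) = 1 := by
          simp only [f, if_neg hσw']
          rw [if_pos hr']
        have ht' : t = z * (u₂ + algebraMap K L q * u₁) := by
          have e3 : (c : L) = z * algebraMap K L q * u₁ := by
            rw [hc₁, hfw, Units.val_mul, coe_up]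
          rw [ht, hc₂, hfw', e3, Units.val_one, map_one]
          ring
        have h4 : w.valuation L (algebraMap K L q * u₁) < 1 := by
          rw [map_mul, hu₁v, mul_one]
          exact hqw
        have htv : w.valuation L t = w.valuation L (z : L) := by
          rw [ht', map_mul, Valuation.map_add_eq_of_lt_left _ (by rwa [hu₂v]), hu₂v, mul_one]
        have hcv : w.valuation L (c : L) ≤ w.valuation L (z : L) := by
          rw [hc₁, hfw, Units.val_mul, map_mul, map_mul, hu₁v, mul_one, coe_up]
          exact mul_le_of_le_one_right' hqw.le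
        rw [htv]
        exact (mul_le_of_le_one_right' hexp1).trans hcv
  by_cases ht0 : t = 0
  · refine ⟨1, fun w hw => ?_⟩
    exfalso
    have h1 := key w hw
    rw [ht0, map_zero] at h1
    have h3 : w.valuation L (c : L) * exp (-(d : ℤ)) ≠ 0 :=
      mul_ne_zero (valuation_ne_zero w c) exp_ne_zero
    exact h3 (le_antisymm h1 zero_le)
  · refine ⟨Units.mk0 t ht0, fun w hw => ?_⟩
    rw [mem_cong]
    have e1 : ((z * galU σ (Units.mk0 t ht0) / Units.mk0 t ht0 : Lˣ) : L) - 1 =
        algebraMap K L δ * c * t⁻¹ := by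
      rw [Units.val_div_eq_div_val, Units.val_mul, coe_galU, Units.val_mk0, div_sub_one ht0,
        div_eq_mul_inv]
      congr 1
      have e3 : σ t = σ c + σ z * c := by
        rw [ht, map_add, map_mul, Unr.apply_apply h2 hσ]
      rw [e3, mul_add, ← mul_assoc, hzz, ht]
      ring
    rw [e1, map_mul, map_mul, map_inv₀]
    have htw : w.valuation L t ≠ 0 := (Valuation.ne_zero_iff _).mpr ht0
    rw [← mul_le_mul_iff_left₀ (zero_lt_iff.mpr htw), mul_assoc, inv_mul_cancel₀ htw, mul_one]
    calc w.valuation L (algebraMap K L δ) * w.valuation L (c : L)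
        ≤ exp (-((n + d : ℕ) + 1 : ℤ)) * w.valuation L (c : L) := mul_le_mul_left (hδ w hw) _
      _ = exp (-((n : ℤ) + 1)) * (w.valuation L (c : L) * exp (-(d : ℤ))) := by
        rw [mul_comm (w.valuation L (c : L)), ← mul_assoc, ← exp_add]
        congr 2
        push_cast
        ring
      _ ≤ exp (-((n : ℤ) + 1)) * w.valuation L t := mul_le_mul_right (key w hw) _

end Fermat.Agent.LT.Psi
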