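import Fermat.Agent.LT.Psi.Exist

/-!
# Values of the descended character
-/

set_option autoImplicit false
set_option linter.unusedSectionVars false

namespace Fermat.Agent.LT.Psi

open IsDedekindDomain NumberField WithZero
open Fermat.Agent.CFT.SUnits (ord ord_one ord_mul ord_inv ord_pow ord_div ord_eq_zero_iff
  valuation_eq_exp_neg_ord finite_ord_ne_zero div div_apply)
open Fermat.Agent.CFT.Places
open Fermat.Agent.CFT.Global hiding Inputs p_dvd_index exists_notMem_locPow exists_place powE mem_powE index_powE index_zpowers_sup_powE second hasse_norm FirstInequality exists_eq_nsmul_add exists_ne_symVec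
open Fermat.Agent.CFT.Global2

section Quad

variable {K L : Type*} [Field K] [NumberField K] [Field L] [NumberField L] [Algebra K L]
  [IsGalois K L] (h2 : Module.finrank K L = 2) {σ : L ≃ₐ[K] L} (hσ : σ ≠ 1)
  {S : Finset (HeightOneSpectrum (𝓞 K))} (hClL : ClTrivial (above L S))
  (he : ∀ w : HeightOneSpectrum (𝓞 L), w ∉ above L S →
    (w.under (𝓞 K)).asIdeal.ramificationIdx' w.asIdeal = 1)

include h2 hσ hClL he in
open Classical in
/-- the divisor of the norm of a uniformizer at `w` outside `S` -/
theorem exists_norm_single {w : HeightOneSpectrum (𝓞 L)} (hw : w ∉ above L S) :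
    ∃ s : Lˣ, (∀ w' ∉ above L S, w' ≠ w → ord w' s = 0) ∧ ord w s = 1 ∧
      (∀ v ∉ S, v ≠ w.under (𝓞 K) → ord v (normU (K := K) L s) = 0) ∧
      ord (w.under (𝓞 K)) (normU (K := K) L s) = if conj σ w = w then 2 else 1 := by
  obtain ⟨s, hs⟩ := hClL (Finsupp.single w 1)
  have h1 : ∀ w' ∉ above L S, w' ≠ w → ord w' s = 0 := by
    intro w' hw' hne
    rw [hs w' hw', Finsupp.single_eq_of_ne hne]
  have h3 : ord w s = 1 := by rw [hs w hw, Finsupp.single_eq_same]
  have key : ∀ w' ∉ above L S, ord (w'.under (𝓞 K)) (normU (K := K) L s) =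
      ord w' s + ord (conj σ w') s := by
    intro w' hw'
    have h := ord_up w' (normU (K := K) L s)
    rw [he w' hw', Nat.cast_one, one_mul] at h
    rw [← h, ord_up_normU h2 hσ]
  refine ⟨s, h1, h3, ?_, ?_⟩
  · intro v hv hne
    obtain ⟨w', rfl⟩ := exists_below_eq L v
    have hw' : w' ∉ above L S := fun h => hv ((mem_above L).mp h)
    rw [key w' hw', h1 w' hw', h1 (conj σ w') (by rwa [conj_mem_above]), add_zero]
    · intro h
      apply hne
      rw [← h, below_conj]
    · intro h
      apply hne
      rw [h]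
  · rw [key w hw, h3]
    split_ifs with h
    · rw [h, h3]
      rfl
    · rw [h1 (conj σ w) (by rwa [conj_mem_above]) h, add_zero]

include h2 hσ hClL he in
open Classical in
/-- values of a descended character -/
theorem values_of_descent {A B : Type*} [AddCommGroup A] [AddCommGroup B] (f : B → A)
    {ε : HeightOneSpectrum (𝓞 L) → B} {ψ : HeightOneSpectrum (𝓞 K) → A}
    (h : ∀ y : Lˣ, (rayVal S ψ (normU (K := K) L y)).toAdd = f (rayVal (above L S) ε y).toAdd)
    {w : HeightOneSpectrum (𝓞 L)} (hw : w ∉ above L S) :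
    (if conj σ w = w then 2 else 1 : ℤ) • ψ (w.under (𝓞 K)) = f (ε w) := by
  obtain ⟨s, hs1, hs2, hs3, hs4⟩ := exists_norm_single h2 hσ hClL he hw
  have hwS : w.under (𝓞 K) ∉ S := fun h => hw ((mem_above L).mpr h)
  have h1 := h s
  rw [toAdd_rayVal_of_single S ψ hwS hs3, toAdd_rayVal_of_single _ ε hw hs1, hs2, hs4,
    one_smul] at h1
  exact h1

end Quad

end Fermat.Agent.LT.Psi
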