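import Fermat.Agent.LT.Psi.SemiLoc
import Fermat.Agent.LT.Psi.Values

/-!
# Biquadratic towers `F ⊂ E ⊂ M` and the quaternion condition: types of places
-/

set_option autoImplicit false
set_option linter.unusedSectionVars false

namespace Fermat.Agent.LT.Psi

open IsDedekindDomain NumberField WithZero
open Fermat.Agent.CFT.SUnits (ord ord_one ord_mul ord_inv ord_pow ord_div ord_eq_zero_iff
  valuation_eq_exp_neg_ord finite_ord_ne_zero div div_apply)
open Fermat.Agent.CFT.Places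
open Fermat.Agent.CFT.Global hiding Inputs p_dvd_index exists_notMem_locPow exists_place powE mem_powE index_powE index_zpowers_sup_powE second hasse_norm FirstInequality exists_eq_nsmul_add exists_ne_symVec
open Fermat.Agent.CFT.Global2

section Basic

variable {F M : Type*} [Field F] [NumberField F] [Field M] [NumberField M] [Algebra F M]

/-- if `g` fixes `Q`, `r ^ 2 ≡ 1` and `g r = - r` then `2 ∈ Q`. -/
theorem conj_ne_of_sq_cong {g : M ≃ₐ[F] M} {Q : HeightOneSpectrum (𝓞 M)}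
    (h2 : (2 : 𝓞 M) ∉ Q.asIdeal) {r : M} (hr : Q.valuation M (r ^ 2 - 1) < 1) (hg : g r = -r) :
    conj g Q ≠ Q := by
  intro hQ
  have hv2 : Q.valuation M (2 : M) = 1 := by
    have h := (HeightOneSpectrum.valuation_eq_one_iff_notMem (K := M) Q (r := (2 : 𝓞 M))).mpr h2
    rwa [map_ofNat] at h
  have hfix : ∀ x, Q.valuation M (g x) = Q.valuation M x := valuation_apply_of_conj_eq g Q hQ
  have h3 : Q.valuation M (r - 1) < 1 ∨ Q.valuation M (r + 1) < 1 := by
    by_contra! h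
    have e : r ^ 2 - 1 = (r - 1) * (r + 1) := by ring
    rw [e, map_mul] at hr
    have h4 : (1 : ℤᵐ⁰) ≤ Q.valuation M (r - 1) * Q.valuation M (r + 1) := by
      calc (1 : ℤᵐ⁰) = 1 * 1 := (one_mul 1).symm
        _ ≤ _ := mul_le_mul' h.1 h.2
    exact absurd (lt_of_le_of_lt h4 hr) (lt_irrefl _)
  have h5 : Q.valuation M (r - 1) = Q.valuation M (r + 1) := by
    rw [← hfix (r - 1), map_sub, hg, map_one]
    have e : -r - 1 = -(r + 1) := by ring
    rw [e, Valuation.map_neg]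
  have h6 : Q.valuation M (r - 1) < 1 ∧ Q.valuation M (r + 1) < 1 := by
    rcases h3 with h | h
    · exact ⟨h, h5 ▸ h⟩
    · exact ⟨h5 ▸ h, h⟩
  have h7 : Q.valuation M (2 : M) < 1 := by
    have e : (2 : M) = (r + 1) - (r - 1) := by ring
    rw [e]
    exact lt_of_le_of_lt (Valuation.map_sub _ _ _) (max_lt h6.2 h6.1)
  rw [hv2] at h7
  exact lt_irrefl _ h7

/-- a local square downstairs: the Galois elements moving its square root do not fix `Q` -/
theorem conj_ne_of_mem_locPow {g : M ≃ₐ[F] M} {Q : HeightOneSpectrum (𝓞 M)}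
    (h2 : (2 : 𝓞 M) ∉ Q.asIdeal) {a : Fˣ} {α : M} (hα : α ^ 2 = algebraMap F M a)
    (hg : g α = -α) (ha : a ∈ locPow 2 (Q.under (𝓞 F))) : conj g Q ≠ Q := by
  rw [mem_locPow] at ha
  obtain ⟨y, hy⟩ := ha 0
  have hy' : (a / y ^ 2 : Fˣ) ∈ cong (Q.under (𝓞 F)) 0 := hy
  have h3 := map_mem_cong Q 0 hy'
  rw [mem_cong] at h3
  have hy0 : algebraMap F M y ≠ 0 := (map_ne_zero _).mpr y.ne_zero
  refine conj_ne_of_sq_cong h2 (r := α / algebraMap F M y) ?_ ?_
  · have e : (α / algebraMap F M y) ^ 2 - 1 =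
        ((Units.map (algebraMap F M : F →* M) (a / y ^ 2) : Mˣ) : M) - 1 := by
      rw [div_pow, hα]
      simp
    rw [e]
    refine lt_of_le_of_lt h3 ?_
    rw [← exp_zero, exp_lt_exp]
    omega
  · rw [map_div₀, hg, AlgEquiv.commutes, neg_div]

/-- the quaternion condition for `g` -/
def QuatCond (g : M ≃ₐ[F] M) (d : Mˣ) : Prop :=
  ∃ e : Mˣ, d * galU g d = e ^ 2 ∧ g (e : M) = -(e : M)

/-- **inertia in `M(√d)`** -/
theorem notMem_locPow_of_conj_eq {g : M ≃ₐ[F] M} {Q : HeightOneSpectrum (𝓞 M)}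
    (h2 : (2 : 𝓞 M) ∉ Q.asIdeal) {d : Mˣ} (hd : QuatCond g d) (hgg : g * g = 1)
    (hQ : conj g Q = Q) : d ∉ locPow 2 Q := by
  intro hloc
  obtain ⟨e, he, hge⟩ := hd
  rw [mem_locPow] at hloc
  obtain ⟨y, hy⟩ := hloc 0
  have hy' : (d / y ^ 2 : Mˣ) ∈ cong Q 0 := hy
  have hgy : galU g (d / y ^ 2) ∈ cong Q 0 := by
    have h := (mem_cong_conj g Q 0 (d / y ^ 2)).mpr hy'
    rwa [hQ] at h
  have hprod : (d / y ^ 2) * galU g (d / y ^ 2) ∈ cong Q 0 := mul_mem hy' hgy
  have hggx : ∀ x : M, g (g x) = x := fun x => DFunLike.congr_fun hgg x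
  have e1 : (d / y ^ 2) * galU g (d / y ^ 2) = (e / (y * galU g y)) ^ 2 := by
    rw [_root_.map_div, map_pow, div_mul_div_comm, he, div_pow, mul_pow]
  rw [e1, mem_cong] at hprod
  refine conj_ne_of_sq_cong h2 (r := ((e / (y * galU g y) : Mˣ) : M)) ?_ ?_ hQ
  · rw [← Units.val_pow_eq_pow_val]
    refine lt_of_le_of_lt hprod ?_
    rw [← exp_zero, exp_lt_exp]
    omega
  · rw [Units.val_div_eq_div_val, Units.val_mul, coe_galU, map_div₀, map_mul, hge, hggx, neg_div,
      mul_comm (g (y : M))]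

/-- the quadratic character of `M(√d)` is invariant -/
theorem kum_conj {g : M ≃ₐ[F] M} {d : Mˣ} (hd : QuatCond g d) (Q : HeightOneSpectrum (𝓞 M)) :
    kum d (conj g Q) = kum d Q := by
  obtain ⟨e, he, -⟩ := hd
  apply zmod_two_eq
  rw [kum_eq_zero_iff, kum_eq_zero_iff, ← mem_locPow_conj 2 g Q d]
  have h1 : d * galU g d ∈ locPow 2 (conj g Q) := by
    rw [he]
    exact pow_mem_locPow 2 _ e
  constructor
  · intro h
    have := mul_mem (inv_mem h) h1
    rwa [inv_mul_cancel_left] at this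
  · intro h
    have := mul_mem h1 (inv_mem h)
    rwa [mul_inv_cancel_right] at this

end Basic

section Units

variable {F : Type} [Field F] [NumberField F] [IsTotallyComplex F]

/-- of three classes of units `a, b, ab` at `v ∤ 2` one is a square. -/
theorem mem_locPow_or {v : HeightOneSpectrum (𝓞 F)} (hv : (2 : 𝓞 F) ∉ v.asIdeal) {a b : Fˣ}
    (ha : ord v a = 0) (hb : ord v b = 0) (h : a ∉ locPow 2 v) (h' : b ∉ locPow 2 v) :
    a * b ∈ locPow 2 v := by
  obtain ⟨LS, -⟩ := exists_productFormula_two F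
  obtain ⟨π, hπ⟩ := CubicChar.exists_ord_eq_one v
  have hv' : ((2 : ℕ) : 𝓞 F) ∉ v.asIdeal := by exact_mod_cast hv
  have key : ∀ c : Fˣ, ord v c = 0 → (LS.sym v c π = 1 ↔ c ∈ locPow 2 v) := by
    intro c hc
    rw [CubicChar.sym_eq_one_iff LS hv' hc π, hπ]
    constructor
    · rintro (h | h)
      · exact h
      · exfalso
        revert h
        norm_num
    · exact Or.inl
  have h1 : LS.sym v a π ≠ 1 := fun h1 => h ((key a ha).mp h1)
  have h2 : LS.sym v b π ≠ 1 := fun h1 => h' ((key b hb).mp h1)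
  rw [← key _ (by rw [ord_mul, ha, hb, add_zero]), map_mul, MonoidHom.mul_apply]
  have h3 : ∀ x y : Multiplicative (ZMod 2), x ≠ 1 → y ≠ 1 → x * y = 1 := by decide
  exact h3 _ _ h1 h2

end Units

end Fermat.Agent.LT.Psi
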